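import Fermat.Agent.S56.IND.Defs

set_option autoImplicit false
set_option linter.style.haveILetI false

/-!
# Package IND-2 = BR (helper74): the Brauer character

`stmt_BR : Stmt_BR`: the Brauer character is additive and isomorphism-invariant, reduces to the
trace, and is invariant under `g ↦ g ^ #k`.
-/

noncomputable section

namespace Fermat.Agent.S56.IND.H74

open Polynomial Module

section Charpoly

variable {R V : Type*} [CommRing R] [AddCommGroup V] [Module R V]
  [Module.Finite R V] [Module.Free R V]
  (W : Submodule R V) [Module.Free R W] [Module.Finite R W] [Module.Free R (V ⧸ W)]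

open Module.Basis in
/-- The characteristic polynomial is multiplicative for a stable submodule and its quotient
(adapted from `LinearMap.det_eq_det_mul_det`). -/
theorem charpoly_eq_restrict_mul_mapQ (e : V →ₗ[R] V) (he : W ≤ W.comap e) :
    e.charpoly = (e.restrict he).charpoly * (W.mapQ W e he).charpoly := by
  classical
  let m := Module.Free.ChooseBasisIndex R W
  let bW : Basis m R W := Module.Free.chooseBasis R W
  let n := Module.Free.ChooseBasisIndex R (V ⧸ W)
  let bQ : Basis n R (V ⧸ W) := Module.Free.chooseBasis R (V ⧸ W)
  let b := sumQuot bW bQ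
  let A : Matrix m m R := LinearMap.toMatrix bW bW (e.restrict he)
  let B : Matrix m n R := Matrix.of fun i l ↦
    ((sumQuot bW bQ).repr (e ((sumQuot bW bQ) (Sum.inr l)))) (Sum.inl i)
  let D : Matrix n n R := LinearMap.toMatrix bQ bQ (W.mapQ W e he)
  suffices LinearMap.toMatrix b b e = Matrix.fromBlocks A B 0 D by
    rw [← LinearMap.charpoly_toMatrix e b, this, ← LinearMap.charpoly_toMatrix (e.restrict he) bW,
      ← LinearMap.charpoly_toMatrix (W.mapQ W e he) bQ, Matrix.charpoly_fromBlocks_zero₂₁]
  ext u v
  cases u with
  | inl i =>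
    cases v with
    | inl k =>
      simp only [b, sumQuot_inl, Matrix.fromBlocks_apply₁₁, A, LinearMap.toMatrix_apply]
      apply sumQuot_repr_inl_of_mem
    | inr l => simp [b, LinearMap.toMatrix_apply, Matrix.fromBlocks_apply₁₂, B]
  | inr j =>
    cases v with
    | inl k =>
      suffices W.mkQ (e (bW k)) = 0 by simp [LinearMap.toMatrix_apply, b, this]
      rw [← LinearMap.mem_ker, Submodule.ker_mkQ]
      exact he (Submodule.coe_mem (bW k))
    | inr l =>
      simp only [LinearMap.toMatrix_apply, sumQuot_repr_inr,
        Matrix.fromBlocks_apply₂₂, b, D]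
      rw [← sumQuot_inr bW bQ l, W.mapQ_apply]
      simp

end Charpoly

section Brauer

variable {k : Type} [Field k] {G : Type} [Group G] (p : ℕ) [Fact p.Prime]

/-- Additivity of the Brauer character. -/
theorem brauer_add {V : Type} [AddCommGroup V] [Module k V] [FiniteDimensional k V]
    (ρ : Representation k G V) (W : Submodule k V) (hW : ∀ g, W ≤ W.comap (ρ g)) (g : G) :
    brauer p ρ g = brauer p (ρ.subrepresentation W hW) g + brauer p (ρ.quotient W hW) g := by
  unfold brauer
  have h1 : (ρ.subrepresentation W hW) g = (ρ g).restrict (hW g) := rfl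
  have h2 : (ρ.quotient W hW) g = W.mapQ W (ρ g) (hW g) := rfl
  rw [h1, h2, charpoly_eq_restrict_mul_mapQ W (ρ g) (hW g), aroots_mul, Multiset.map_add,
    Multiset.sum_add]
  exact mul_ne_zero (LinearMap.charpoly_monic _).ne_zero (LinearMap.charpoly_monic _).ne_zero

/-- Isomorphism invariance of the Brauer character. -/
theorem brauer_iso {V W : Type} [AddCommGroup V] [Module k V] [AddCommGroup W] [Module k W]
    [FiniteDimensional k V] [FiniteDimensional k W] (ρ : Representation k G V)
    (σ : Representation k G W) (e : V ≃ₗ[k] W) (he : ∀ g v, e (ρ g v) = σ g (e v)) (g : G) :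
    brauer p ρ g = brauer p σ g := by
  unfold brauer
  have h : e.conj (ρ g) = σ g := by
    ext w
    rw [LinearEquiv.conj_apply_apply, he, LinearEquiv.apply_symm_apply]
  rw [← h, LinearEquiv.charpoly_conj]

/-- The Brauer character reduces to the trace. -/
theorem constantCoeff_brauer [CharP k p] {V : Type} [AddCommGroup V] [Module k V]
    [FiniteDimensional k V] (ρ : Representation k G V) (g : G) :
    WittVector.constantCoeff (brauer p ρ g) =
      algebraMap k (AlgebraicClosure k) (LinearMap.trace k V (ρ g)) := by
  unfold brauer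
  rw [map_multiset_sum, Multiset.map_map]
  have e : (WittVector.constantCoeff ∘ (WittVector.teichmuller p :
      AlgebraicClosure k →* WittVector p (AlgebraicClosure k))) = id := by
    funext x
    exact WittVector.teichmuller_coeff_zero p x
  have e' : (fun x : AlgebraicClosure k =>
      WittVector.constantCoeff ((WittVector.teichmuller p :
        AlgebraicClosure k →* WittVector p (AlgebraicClosure k)) x)) = id := e
  rw [show (⇑(WittVector.constantCoeff (p := p) (R := AlgebraicClosure k)) ∘
      ⇑(WittVector.teichmuller p : AlgebraicClosure k →* WittVector p (AlgebraicClosure k))) = id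
      from e, Multiset.map_id]
  have hmon : ((ρ g).charpoly.map (algebraMap k (AlgebraicClosure k))).Monic :=
    (LinearMap.charpoly_monic _).map _
  have hs := (IsAlgClosed.splits
    ((ρ g).charpoly.map (algebraMap k (AlgebraicClosure k)))).nextCoeff_eq_neg_sum_roots_of_monic
    hmon
  have hs' : ((ρ g).charpoly.map (algebraMap k (AlgebraicClosure k))).roots.sum =
      - ((ρ g).charpoly.map (algebraMap k (AlgebraicClosure k))).nextCoeff := by
    rw [hs, neg_neg]
  rw [aroots_def, hs',
    Polynomial.nextCoeff_map (algebraMap k (AlgebraicClosure k)).injective]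
  rw [← map_neg]
  congr 1
  rw [LinearMap.trace_eq_matrix_trace k (Module.Free.chooseBasis k V),
    Matrix.trace_eq_neg_charpoly_nextCoeff, LinearMap.charpoly_toMatrix]

/-- Invariance under `g ↦ g ^ #k`. -/
theorem brauer_pow_card [Finite k] {V : Type} [AddCommGroup V] [Module k V]
    [FiniteDimensional k V] (ρ : Representation k G V) (g : G) :
    brauer p ρ (g ^ Nat.card k) = brauer p ρ g := by
  classical
  haveI : Fintype k := Fintype.ofFinite k
  unfold brauer
  have h : (ρ (g ^ Nat.card k)).charpoly = (ρ g).charpoly := by
    rw [map_pow, ← LinearMap.charpoly_toMatrix _ (Module.Free.chooseBasis k V),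
      ← LinearMap.toMatrix_pow, Nat.card_eq_fintype_card, FiniteField.Matrix.charpoly_pow_card,
      LinearMap.charpoly_toMatrix]
  rw [h]

/-- **BR.** -/
theorem stmt_BR : Stmt_BR := by
  intro p _ k _ _ _ G _
  refine ⟨⟨?_, ?_⟩, ?_, ?_⟩
  · intro V W _ _ _ _ _ ρ σ e he
    haveI : FiniteDimensional k W := LinearEquiv.finiteDimensional e
    funext g
    rw [brauerFn_of, brauerFn_of]
    exact brauer_iso p ρ σ e he g
  · intro V _ _ _ ρ W hW
    funext g
    rw [brauerFn_of, brauerFn_of, brauerFn_of, Pi.add_apply]
    exact brauer_add p ρ W hW g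
  · intro V _ _ _ ρ g
    exact constantCoeff_brauer p ρ g
  · intro V _ _ _ ρ g
    exact brauer_pow_card p ρ g

end Brauer

end Fermat.Agent.S56.IND.H74

end
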