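import Fermat.Agent.S56.IND.Defs

set_option autoImplicit false
set_option linter.style.haveILetI false
set_option linter.unusedSectionVars false
set_option linter.unusedVariables false

/-!
# Package IND-5 = PERM (helper74): the Brauer character of a permutation representation

Lift lemma: for a matrix `P` over a domain `R` with `P ^ m = 1`, a ring homomorphism
`red : R → K` to a field with a multiplicative section `τ` and a primitive `m`-th root of unity
in `K`: the sum of the `τ`-lifts of the roots of `charpoly (red P)` is the trace of `P`.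
-/

noncomputable section

namespace Fermat.Agent.S56.IND.H74

open Polynomial Matrix

section Lift

variable {R : Type*} [CommRing R] [IsDomain R] {K : Type*} [Field K]
  (red : R →+* K) (τ : K →* R) (hτ : ∀ x, red (τ x) = x)
  {ν : Type*} [Fintype ν] [DecidableEq ν]

include hτ in
theorem tau_injective : Function.Injective τ := fun x y h => by
  rw [← hτ x, ← hτ y, h]

/-- A root of the characteristic polynomial of a matrix of order dividing `m` is an `m`-th root
of unity. -/
theorem pow_eq_one_of_isRoot_charpoly {F : Type*} [Field F] (A : Matrix ν ν F) (m : ℕ)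
    (hA : A ^ m = 1) (μ : F) (hμ : A.charpoly.IsRoot μ) : μ ^ m = 1 := by
  have h1 : (Matrix.toLin' A).charpoly.IsRoot μ := by
    rw [Matrix.charpoly_toLin']
    exact hμ
  rw [← Module.End.hasEigenvalue_iff_isRoot_charpoly] at h1
  obtain ⟨v, hv⟩ := h1.exists_hasEigenvector
  have h2 : ∀ j : ℕ, (Matrix.toLin' A ^ j) v = μ ^ j • v := by
    intro j
    induction j with
    | zero => simp
    | succ j ih =>
      rw [pow_succ, Module.End.mul_apply, hv.apply_eq_smul, map_smul, ih, smul_smul, pow_succ,
        mul_comm]
  have h3 := h2 m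
  rw [← Matrix.toLin'_pow, hA, Matrix.toLin'_one, LinearMap.id_apply] at h3
  have h4 : (μ ^ m - 1) • v = 0 := by
    rw [sub_smul, one_smul, ← h3, sub_self]
  rcases smul_eq_zero.mp h4 with h5 | h5
  · exact sub_eq_zero.mp h5
  · exact absurd h5 hv.2

include hτ in
/-- **Lift lemma.** -/
theorem lift_trace (P : Matrix ν ν R) (m : ℕ) [NeZero m] (hP : P ^ m = 1) (ζ₀ : K)
    (hζ₀ : IsPrimitiveRoot ζ₀ m) :
    (((P.map red).charpoly.roots).map τ).sum = P.trace := by
  classical
  let L := AlgebraicClosure (FractionRing R)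
  let ι : R →+* L := (algebraMap (FractionRing R) L).comp (algebraMap R (FractionRing R))
  have hι : Function.Injective ι :=
    (algebraMap (FractionRing R) L).injective.comp (IsFractionRing.injective R (FractionRing R))
  have hτinj := tau_injective red τ hτ
  -- a primitive root of unity in `L`
  have hz : IsPrimitiveRoot (ι (τ ζ₀)) m :=
    (hζ₀.map_of_injective hτinj).map_of_injective hι
  -- the roots of the characteristic polynomial over `L`
  let Q := P.charpoly
  have hQmon : Q.Monic := Matrix.charpoly_monic P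
  have hQL : Q.map ι = (P.map ι).charpoly := (Matrix.charpoly_map P ι).symm
  have hPL : (P.map ι) ^ m = 1 := by
    have h := congrArg (RingHom.mapMatrix (m := ν) ι) hP
    rw [map_pow, map_one] at h
    exact h
  have hroot : ∀ μ ∈ (Q.map ι).roots, ∃ ζ : K, ι (τ ζ) = μ := by
    intro μ hμ
    have h1 : (P.map ι).charpoly.IsRoot μ := by
      rw [← hQL]
      exact (Polynomial.mem_roots'.mp hμ).2
    have h2 := pow_eq_one_of_isRoot_charpoly (P.map ι) m hPL μ h1
    obtain ⟨i, -, hi⟩ := hz.eq_pow_of_pow_eq_one h2
    exact ⟨ζ₀ ^ i, by rw [map_pow, map_pow, hi]⟩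
  -- lift the roots to `K`
  let inv : L → K := fun μ => if h : ∃ ζ : K, ι (τ ζ) = μ then h.choose else 0
  have hinv : ∀ μ ∈ (Q.map ι).roots, ι (τ (inv μ)) = μ := by
    intro μ hμ
    have h := hroot μ hμ
    show ι (τ (if h : ∃ ζ : K, ι (τ ζ) = μ then h.choose else 0)) = μ
    rw [dif_pos h]
    exact h.choose_spec
  obtain ⟨t, ht⟩ : ∃ t : Multiset K, (Q.map ι).roots = (t.map τ).map ι := by
    refine ⟨(Q.map ι).roots.map inv, ?_⟩
    rw [Multiset.map_map, Multiset.map_map]
    conv_lhs => rw [← Multiset.map_id (Q.map ι).roots]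
    exact Multiset.map_congr rfl fun μ hμ => (hinv μ hμ).symm
  -- factorisation over `R`
  have hsplit : (Q.map ι).Splits := IsAlgClosed.splits _
  have hfact : Q.map ι = (((t.map τ).map fun a => X - C a).prod).map ι := by
    conv_lhs => rw [hsplit.eq_prod_roots_of_monic (hQmon.map ι), ht]
    rw [Polynomial.map_multiset_prod, Multiset.map_map, Multiset.map_map, Multiset.map_map,
      Multiset.map_map]
    congr 1
    refine Multiset.map_congr rfl fun a _ => ?_
    simp
  have hQ : Q = ((t.map τ).map fun a => X - C a).prod :=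
    Polynomial.map_injective ι hι hfact
  -- reduction
  have hred : (P.map red).charpoly = (t.map fun a => X - C a).prod := by
    rw [Matrix.charpoly_map, show P.charpoly = Q from rfl, hQ, Polynomial.map_multiset_prod,
      Multiset.map_map, Multiset.map_map]
    congr 1
    refine Multiset.map_congr rfl fun a _ => ?_
    simp [hτ]
  rw [hred, Polynomial.roots_multiset_prod_X_sub_C, Matrix.trace_eq_neg_charpoly_nextCoeff,
    show P.charpoly = Q from rfl, hQ, Polynomial.multiset_prod_X_sub_C_nextCoeff, neg_neg]

end Lift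

section Perm

variable (p : ℕ) [Fact p.Prime] (k : Type) [Field k] [CharP k p]
  (G : Type) [Group G] (X : Type) [Fintype X] [DecidableEq X] [MulAction G X]

/-- The matrix of `permRep g` in the standard basis is the permutation matrix of `g⁻¹`. -/
theorem toMatrix_permRep (g : G) :
    LinearMap.toMatrix (Pi.basisFun k X) (Pi.basisFun k X) (permRep k G X g) =
      (MulAction.toPerm g⁻¹ : Equiv.Perm X).permMatrix k := by
  ext i j
  rw [LinearMap.toMatrix_apply, Pi.basisFun_repr, Pi.basisFun_apply, permRep_apply]
  show _ = (MulAction.toPerm g⁻¹ : Equiv.Perm X).toPEquiv.toMatrix i j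
  rw [PEquiv.toMatrix_apply]
  simp only [Equiv.toPEquiv_apply, MulAction.toPerm_apply, Option.mem_def, Option.some.injEq]
  by_cases h : g⁻¹ • i = j
  · rw [if_pos h, h, Pi.single_eq_same]
  · rw [if_neg h, Pi.single_eq_of_ne h]

theorem permMatrix_map {R S : Type*} [Semiring R] [Semiring S] (f : R →+* S)
    (σ : Equiv.Perm X) : (σ.permMatrix R).map f = σ.permMatrix S := by
  ext i j
  show f (σ.toPEquiv.toMatrix i j) = σ.toPEquiv.toMatrix i j
  rw [PEquiv.toMatrix_apply, PEquiv.toMatrix_apply]
  split_ifs <;> simp

theorem permMatrix_pow_orderOf [Finite G] (R : Type*) [CommRing R] (g : G) :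
    ((MulAction.toPerm g⁻¹ : Equiv.Perm X).permMatrix R) ^ orderOf g = 1 := by
  have e : (MulAction.toPerm g⁻¹ : Equiv.Perm X).permMatrix R =
      Matrix.permMatrixHom (R := R) (MulAction.toPermHom G X g) := by
    rw [Matrix.permMatrixHom_apply]
    congr 1
    rw [← map_inv]
    rfl
  rw [e, ← map_pow, ← map_pow, pow_orderOf_eq_one, map_one, map_one]

theorem card_fixed_inv (g : G) :
    (Function.fixedPoints (MulAction.toPerm g⁻¹ : Equiv.Perm X)).ncard =
      Nat.card {x : X // g • x = x} := by
  rw [← Nat.card_coe_set_eq]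
  refine Nat.card_congr (Equiv.subtypeEquivRight fun x => ?_)
  show g⁻¹ • x = x ↔ g • x = x
  constructor
  · intro h
    calc g • x = g • (g⁻¹ • x) := by rw [h]
      _ = x := smul_inv_smul g x
  · intro h
    calc g⁻¹ • x = g⁻¹ • (g • x) := by rw [h]
      _ = x := inv_smul_smul g x

theorem brauer_permRep [Finite G] (g : G) (hg : ¬ p ∣ orderOf g) :
    brauer p (permRep k G X) g = (Nat.card {x : X // g • x = x} : WK p k) := by
  have hp : p.Prime := Fact.out
  haveI : NeZero (orderOf g) := ⟨(orderOf_pos g).ne'⟩
  haveI : NeZero ((orderOf g : ℕ) : k) := ⟨by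
    intro h
    exact hg ((CharP.cast_eq_zero_iff k p (orderOf g)).mp h)⟩
  obtain ⟨ζ₀, hζ₀⟩ := HasEnoughRootsOfUnity.exists_primitiveRoot (AlgebraicClosure k) (orderOf g)
  have key := lift_trace (WittVector.constantCoeff (p := p) (R := AlgebraicClosure k))
    (WittVector.teichmuller p) (fun x => WittVector.teichmuller_coeff_zero p x)
    ((MulAction.toPerm g⁻¹ : Equiv.Perm X).permMatrix (WK p k)) (orderOf g)
    (permMatrix_pow_orderOf G X (WK p k) g) ζ₀ hζ₀
  rw [Matrix.trace_permutation, card_fixed_inv] at key
  rw [← key]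
  unfold brauer
  congr 2
  rw [Polynomial.aroots_def, ← LinearMap.charpoly_toMatrix _ (Pi.basisFun k X),
    toMatrix_permRep, ← Matrix.charpoly_map, permMatrix_map, permMatrix_map]

end Perm

/-- **PERM.** -/
theorem stmt_PERM : Stmt_PERM := by
  classical
  intro p _ k _ _ _ G _ _ X _ _ g hg
  haveI : Fintype X := Fintype.ofFinite X
  exact brauer_permRep p k G X g hg

end Fermat.Agent.S56.IND.H74

end
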