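import Mathlib

set_option autoImplicit false

/-!
# Cluster T / S56, GW-CORE, package IND (owner-planner helper74): modular Artin induction

`Stmt_IND`: `k` a finite field of characteristic `p`, `G` a finite group.  An additive,
isomorphism-invariant `ℤ`-valued function on finite-dimensional `k[G]`-modules which vanishes on
every module induced from a cyclic subgroup of order prime to `p` is zero.
(No hypothesis "`k` large" is needed; modules are induced from arbitrary modules of the subgroup.)

Route (Brauer characters with values in the Witt vectors of the algebraic closure):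
* `Stmt_JH`   every f.d. module has a list of simple "composition factors" seen by all additive
              functions;
* `Stmt_BR`   the Brauer character `brauerFn` is additive, reduces to the trace, and is invariant
              under `g ↦ g ^ #k`;
* `Stmt_TR`   the traces of pairwise non-isomorphic simple modules are linearly independent;
* `Stmt_BN`   (Brauer-Nesbitt) an integral relation between Brauer characters gives the same
              relation for all additive functions                     [from JH, BR, TR];
* `Stmt_PERM` the Brauer character of a permutation module at a `p`-regular element is the number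
              of fixed points;
* `Stmt_ART`  Artin's formula `∑_B a_B #Fix(x, G/B) = #G` for `p`-regular `x`, `B` cyclic `p'`;
* `Stmt_TENS` `W ↦ f (V ⊗ W)` is additive, `V ⊗ k[G/B]` is induced from `B`, `V ⊗ k ≅ V`.
Assembly: `IND/Asm.lean`.
-/

noncomputable section

namespace Fermat.Agent.S56.IND

open Polynomial

/-- The Witt vectors of the algebraic closure of `k`: the value ring of Brauer characters. -/
abbrev WK (p : ℕ) (k : Type) [Field k] : Type := WittVector p (AlgebraicClosure k)

section Defs

variable (k : Type) [Field k] (G : Type) [Group G]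

/-- Additive, isomorphism-invariant functions on finite-dimensional representations. -/
structure IsAdditiveFn {A : Type} [AddCommGroup A] (f : Rep.{0} k G → A) : Prop where
  iso : ∀ {V W : Type} [AddCommGroup V] [Module k V] [AddCommGroup W] [Module k W]
    [FiniteDimensional k V] (ρ : Representation k G V) (σ : Representation k G W)
    (e : V ≃ₗ[k] W), (∀ g v, e (ρ g v) = σ g (e v)) → f (Rep.of ρ) = f (Rep.of σ)
  add : ∀ {V : Type} [AddCommGroup V] [Module k V] [FiniteDimensional k V]
    (ρ : Representation k G V) (W : Submodule k V) (hW : ∀ g, W ≤ W.comap (ρ g)),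
    f (Rep.of ρ) = f (Rep.of (ρ.subrepresentation W hW)) + f (Rep.of (ρ.quotient W hW))

variable {k G}

/-- `ρ` is induced from the `B`-stable subspace `W`: the translates of `W` span `V` and
`dim V = [G : B] dim W`. -/
def IsInducedFrom {V : Type} [AddCommGroup V] [Module k V] (ρ : Representation k G V)
    (B : Subgroup G) (W : Submodule k V) : Prop :=
  (∀ b ∈ B, ∀ w ∈ W, ρ b w ∈ W) ∧ (⨆ g : G, W.map (ρ g)) = ⊤ ∧
    Module.finrank k V = B.index * Module.finrank k W

/-- A simple representation: nonzero, without proper nonzero stable subspaces. -/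
def IsSimpleRep {V : Type} [AddCommGroup V] [Module k V] (ρ : Representation k G V) : Prop :=
  Nontrivial V ∧ ∀ W : Submodule k V, (∀ g, W ≤ W.comap (ρ g)) → W = ⊥ ∨ W = ⊤

/-- Isomorphic representations. -/
def RepIso {V W : Type} [AddCommGroup V] [Module k V] [AddCommGroup W] [Module k W]
    (ρ : Representation k G V) (σ : Representation k G W) : Prop :=
  ∃ e : V ≃ₗ[k] W, ∀ g v, e (ρ g v) = σ g (e v)

variable (k G)

/-- The permutation representation on `X → k`: `(g • φ) x = φ (g⁻¹ • x)`, so that
`g • e_y = e_{g • y}`. -/
def permRep (X : Type) [MulAction G X] : Representation k G (X → k) where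
  toFun g :=
    { toFun := fun φ x => φ (g⁻¹ • x)
      map_add' := fun _ _ => rfl
      map_smul' := fun _ _ => rfl }
  map_one' := by
    ext φ x
    simp
  map_mul' g h := by
    ext φ x
    simp [mul_smul]

@[simp] theorem permRep_apply (X : Type) [MulAction G X] (g : G) (φ : X → k) (x : X) :
    permRep k G X g φ x = φ (g⁻¹ • x) := rfl

variable {k G}

/-- The Brauer character of a finite-dimensional representation: the sum of the Teichmüller
lifts of the eigenvalues (in the algebraic closure, with multiplicity). -/
def brauer (p : ℕ) [Fact p.Prime] {V : Type} [AddCommGroup V] [Module k V]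
    [FiniteDimensional k V] (ρ : Representation k G V) (g : G) : WK p k :=
  (((LinearMap.charpoly (ρ g)).aroots (AlgebraicClosure k)).map (WittVector.teichmuller p)).sum

open Classical in
/-- The Brauer character as a function on `Rep` (zero on infinite-dimensional ones). -/
def brauerFn (p : ℕ) [Fact p.Prime] (V : Rep.{0} k G) : G → WK p k :=
  if h : FiniteDimensional k V then (haveI := h; brauer p V.ρ) else 0

theorem brauerFn_of (p : ℕ) [Fact p.Prime] {V : Type} [AddCommGroup V] [Module k V]
    [FiniteDimensional k V] (ρ : Representation k G V) :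
    brauerFn p (Rep.of ρ) = brauer p ρ := by
  unfold brauerFn
  rw [dif_pos (show FiniteDimensional k (Rep.of ρ) from ‹FiniteDimensional k V›)]

end Defs

/-! ### The statements -/

/-- **IND** (modular Artin induction). -/
def Stmt_IND : Prop :=
  ∀ (p : ℕ) [Fact p.Prime] (k : Type) [Field k] [Finite k] [CharP k p]
    (G : Type) [Group G] [Finite G] (f : Rep.{0} k G → ℤ), IsAdditiveFn k G f →
    (∀ (V : Type) [AddCommGroup V] [Module k V] [FiniteDimensional k V]
      (ρ : Representation k G V) (B : Subgroup G) (W : Submodule k V),
      IsCyclic B → ¬ p ∣ Nat.card B → IsInducedFrom ρ B W → f (Rep.of ρ) = 0) →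
    ∀ (V : Type) [AddCommGroup V] [Module k V] [FiniteDimensional k V]
      (ρ : Representation k G V), f (Rep.of ρ) = 0

/-- **IND-1 = JH.** Composition factors, as seen by additive functions. -/
def Stmt_JH : Prop :=
  ∀ (k : Type) [Field k] (G : Type) [Group G]
    (V : Type) [AddCommGroup V] [Module k V] [FiniteDimensional k V]
    (ρ : Representation k G V),
    ∃ (n : ℕ) (S : Fin n → Rep.{0} k G), (∀ i, FiniteDimensional k (S i)) ∧
      (∀ i, IsSimpleRep (S i).ρ) ∧
      ∀ (A : Type) [AddCommGroup A] (F : Rep.{0} k G → A), IsAdditiveFn k G F →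
        F (Rep.of ρ) = ∑ i, F (S i)

/-- **IND-2 = BR.** The Brauer character is additive, reduces to the trace, and is invariant
under `g ↦ g ^ #k`. -/
def Stmt_BR : Prop :=
  ∀ (p : ℕ) [Fact p.Prime] (k : Type) [Field k] [Finite k] [CharP k p]
    (G : Type) [Group G],
    IsAdditiveFn k G (brauerFn (k := k) (G := G) p) ∧
    (∀ (V : Type) [AddCommGroup V] [Module k V] [FiniteDimensional k V]
      (ρ : Representation k G V) (g : G),
      WittVector.constantCoeff (brauer p ρ g) =
        algebraMap k (AlgebraicClosure k) (LinearMap.trace k V (ρ g))) ∧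
    (∀ (V : Type) [AddCommGroup V] [Module k V] [FiniteDimensional k V]
      (ρ : Representation k G V) (g : G), brauer p ρ (g ^ Nat.card k) = brauer p ρ g)

/-- **IND-3 = TR.** The traces of pairwise non-isomorphic simple representations are linearly
independent. -/
def Stmt_TR : Prop :=
  ∀ (k : Type) [Field k] [Finite k] (G : Type) [Group G] [Finite G]
    (ι : Type) [Fintype ι] (S : ι → Rep.{0} k G), (∀ i, FiniteDimensional k (S i)) →
    (∀ i, IsSimpleRep (S i).ρ) → (∀ i j, i ≠ j → ¬ RepIso (S i).ρ (S j).ρ) →
    ∀ c : ι → k, (∀ g : G, ∑ i, c i * LinearMap.trace k (S i) ((S i).ρ g) = 0) → ∀ i, c i = 0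

/-- **IND-4 = BN** (Brauer-Nesbitt).  An integral linear relation between Brauer characters of
finite-dimensional representations holds for every additive function. -/
def Stmt_BN : Prop :=
  ∀ (p : ℕ) [Fact p.Prime] (k : Type) [Field k] [Finite k] [CharP k p]
    (G : Type) [Group G] [Finite G]
    (ι : Type) [Fintype ι] (V : ι → Rep.{0} k G), (∀ i, FiniteDimensional k (V i)) →
    ∀ c : ι → ℤ, (∀ g : G, ∑ i, c i • brauerFn p (V i) g = 0) →
    ∀ F : Rep.{0} k G → ℤ, IsAdditiveFn k G F → ∑ i, c i * F (V i) = 0

/-- **IND-5 = PERM.** The Brauer character of a permutation representation at an element of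
order prime to `p` is the number of fixed points. -/
def Stmt_PERM : Prop :=
  ∀ (p : ℕ) [Fact p.Prime] (k : Type) [Field k] [Finite k] [CharP k p]
    (G : Type) [Group G] [Finite G] (X : Type) [Finite X] [MulAction G X] (g : G),
    ¬ p ∣ orderOf g →
    brauer p (permRep k G X) g = (Nat.card {x : X // g • x = x} : WK p k)

open Classical in
/-- **IND-6 = ART** (Artin's formula for permutation characters).  There are integers `a B`,
supported on the cyclic subgroups of order prime to `p`, such that
`∑_B a B * #Fix(x, G/B) = #G` for every `x` of order prime to `p`. -/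
def Stmt_ART : Prop :=
  ∀ (p : ℕ) (G : Type) [Group G] [Fintype G],
    ∃ a : Subgroup G → ℤ, (∀ B, a B ≠ 0 → IsCyclic B ∧ ¬ p ∣ Nat.card B) ∧
      ∀ x : G, ¬ p ∣ orderOf x →
        ∑ B : Subgroup G, a B * (Nat.card {q : G ⧸ B // x • q = q} : ℤ) = Nat.card G

/-- **IND-7 = TENS.** Tensoring with a fixed finite-dimensional representation:
`W ↦ f (V ⊗ W)` is additive; `V ⊗ k[G/B]` is induced from `B`; `V ⊗ k[pt] ≅ V`. -/
def Stmt_TENS : Prop :=
  ∀ (k : Type) [Field k] (G : Type) [Group G] [Finite G]
    (V : Type) [AddCommGroup V] [Module k V] [FiniteDimensional k V]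
    (ρ : Representation k G V),
    (∀ f : Rep.{0} k G → ℤ, IsAdditiveFn k G f →
      IsAdditiveFn k G (fun W : Rep.{0} k G => f (Rep.of (ρ.tprod W.ρ)))) ∧
    (∀ B : Subgroup G, ∃ W : Submodule k (TensorProduct k V (G ⧸ B → k)),
      IsInducedFrom (ρ.tprod (permRep k G (G ⧸ B))) B W) ∧
    RepIso (ρ.tprod (permRep k G PUnit)) ρ

end Fermat.Agent.S56.IND

end
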