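import Fermat.Agent.S56.IND.Defs

set_option autoImplicit false

/-!
# Package IND: assembly (helper74)

`stmt_IND_of : Stmt_BR → Stmt_BN → Stmt_PERM → Stmt_ART → Stmt_TENS → Stmt_IND`.
-/

noncomputable section

namespace Fermat.Agent.S56.IND

open Polynomial

/-- Iterating the invariance under `g ↦ g ^ #k`. -/
theorem brauer_pow_card_pow (hBR : Stmt_BR) (p : ℕ) [Fact p.Prime] (k : Type) [Field k]
    [Finite k] [CharP k p] (G : Type) [Group G]
    (V : Type) [AddCommGroup V] [Module k V] [FiniteDimensional k V]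
    (ρ : Representation k G V) (g : G) (j : ℕ) :
    brauer p ρ (g ^ (Nat.card k) ^ j) = brauer p ρ g := by
  induction j with
  | zero => simp
  | succ j ih =>
    rw [pow_succ, pow_mul, (hBR p k G).2.2 V ρ (g ^ Nat.card k ^ j), ih]

/-- For every element `g` of a finite group there is `j` such that `g ^ (#k) ^ j` has order
prime to `p`. -/
theorem exists_pow_regular (p : ℕ) [Fact p.Prime] (k : Type) [Field k] [Finite k] [CharP k p]
    (G : Type) [Group G] [Finite G] (g : G) :
    ∃ j : ℕ, ¬ p ∣ orderOf (g ^ (Nat.card k) ^ j) := by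
  have hp : p.Prime := Fact.out
  haveI : Fintype k := Fintype.ofFinite k
  obtain ⟨n, hn⟩ := FiniteField.card k p
  have hcard : Nat.card k = p ^ (n : ℕ) := by
    rw [Nat.card_eq_fintype_card, hn.2]
  have hn0 : 0 < (n : ℕ) := n.pos
  have ho : 0 < orderOf g := orderOf_pos g
  -- write `orderOf g = p ^ a * m` with `p ∤ m`
  obtain ⟨a, m, hm, hfact⟩ := Nat.exists_eq_pow_mul_and_not_dvd ho.ne' p hp.ne_one
  refine ⟨a, ?_⟩
  rw [orderOf_pow, hcard, ← pow_mul, hfact]
  have hg : Nat.gcd (p ^ a * m) (p ^ ((n : ℕ) * a)) = p ^ a := by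
    have h1 : p ^ ((n : ℕ) * a) = p ^ a * p ^ ((n : ℕ) * a - a) := by
      rw [← pow_add]
      congr 1
      have : a ≤ (n : ℕ) * a := Nat.le_mul_of_pos_left a hn0
      omega
    rw [h1, Nat.gcd_mul_left]
    have hc : Nat.Coprime m (p ^ ((n : ℕ) * a - a)) :=
      Nat.Coprime.pow_right _ ((Nat.Prime.coprime_iff_not_dvd hp).mpr hm).symm
    rw [hc.gcd_eq_one, mul_one]
  rw [hg, Nat.mul_div_cancel_left m (pow_pos hp.pos a)]
  exact hm

/-- **IND** from its packages. -/
theorem stmt_IND_of (hBR : Stmt_BR) (hBN : Stmt_BN) (hPERM : Stmt_PERM) (hART : Stmt_ART)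
    (hTENS : Stmt_TENS) : Stmt_IND := by
  classical
  intro p _ k _ _ _ G _ _ f hf hind V _ _ _ ρ
  haveI : Fintype G := Fintype.ofFinite G
  obtain ⟨hT1, hT2, hT3⟩ := hTENS k G V ρ
  obtain ⟨a, ha, hart⟩ := hART p G
  have hF := hT1 f hf
  -- the family of permutation modules
  let Vf : Option (Subgroup G) → Rep.{0} k G := fun o =>
    match o with
    | none => Rep.of (permRep k G PUnit)
    | some B => Rep.of (permRep k G (G ⧸ B))
  let cf : Option (Subgroup G) → ℤ := fun o =>
    match o with
    | none => Nat.card G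
    | some B => - a B
  have hfd : ∀ o, FiniteDimensional k (Vf o) := by
    intro o
    cases o with
    | none => exact (inferInstance : FiniteDimensional k (PUnit → k))
    | some B => exact (inferInstance : FiniteDimensional k (G ⧸ B → k))
  -- the relation between Brauer characters at elements of order prime to `p`
  have hreg : ∀ x : G, ¬ p ∣ orderOf x → ∑ o, cf o • brauerFn p (Vf o) x = 0 := by
    intro x hx
    rw [Fintype.sum_option]
    have h0 : brauerFn p (Vf none) x = 1 := by
      show brauerFn p (Rep.of (permRep k G PUnit)) x = 1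
      rw [brauerFn_of, hPERM p k G PUnit x hx]
      have : Nat.card {y : PUnit // x • y = y} = 1 := by
        rw [Nat.card_eq_one_iff_unique]
        exact ⟨⟨fun a b => Subtype.ext (Subsingleton.elim _ _)⟩, ⟨⟨PUnit.unit, rfl⟩⟩⟩
      rw [this, Nat.cast_one]
    have h1 : ∀ B : Subgroup G, brauerFn p (Vf (some B)) x =
        (Nat.card {q : G ⧸ B // x • q = q} : WK p k) := by
      intro B
      show brauerFn p (Rep.of (permRep k G (G ⧸ B))) x = _
      rw [brauerFn_of, hPERM p k G (G ⧸ B) x hx]
    rw [h0]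
    simp only [h1]
    have hz := hart x hx
    have hz' : ((Nat.card G : ℤ) : WK p k) -
        ∑ B : Subgroup G, ((a B * (Nat.card {q : G ⧸ B // x • q = q} : ℤ) : ℤ) : WK p k) = 0 := by
      rw [← Int.cast_sum, hz, sub_self]
    show (Nat.card G : ℤ) • (1 : WK p k) +
      ∑ B : Subgroup G, (- a B) • (Nat.card {q : G ⧸ B // x • q = q} : WK p k) = 0
    rw [zsmul_eq_mul, mul_one]
    have e : ∀ B : Subgroup G, (- a B) • (Nat.card {q : G ⧸ B // x • q = q} : WK p k) =
        - ((a B * (Nat.card {q : G ⧸ B // x • q = q} : ℤ) : ℤ) : WK p k) := by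
      intro B
      rw [zsmul_eq_mul]
      push_cast
      ring
    simp only [e]
    rw [Finset.sum_neg_distrib, ← sub_eq_add_neg]
    exact hz'
  -- the relation at all elements
  have hall : ∀ g : G, ∑ o, cf o • brauerFn p (Vf o) g = 0 := by
    intro g
    obtain ⟨j, hj⟩ := exists_pow_regular p k G g
    have e : ∀ o, brauerFn p (Vf o) g = brauerFn p (Vf o) (g ^ (Nat.card k) ^ j) := by
      intro o
      cases o with
      | none =>
        show brauerFn p (Rep.of (permRep k G PUnit)) g = brauerFn p (Rep.of (permRep k G PUnit)) _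
        rw [brauerFn_of, brauer_pow_card_pow hBR]
      | some B =>
        show brauerFn p (Rep.of (permRep k G (G ⧸ B))) g =
          brauerFn p (Rep.of (permRep k G (G ⧸ B))) _
        rw [brauerFn_of, brauer_pow_card_pow hBR]
    simp only [e]
    exact hreg _ hj
  -- Brauer-Nesbitt
  have key := hBN p k G (Option (Subgroup G)) Vf hfd cf hall
    (fun W : Rep.{0} k G => f (Rep.of (ρ.tprod W.ρ))) hF
  rw [Fintype.sum_option] at key
  -- the induced terms vanish
  have hzero : ∀ B : Subgroup G,
      cf (some B) * (fun W : Rep.{0} k G => f (Rep.of (ρ.tprod W.ρ))) (Vf (some B)) = 0 := by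
    intro B
    by_cases hB : a B = 0
    · show (- a B) * _ = 0
      rw [hB, neg_zero, zero_mul]
    · obtain ⟨hcyc, hpB⟩ := ha B hB
      obtain ⟨W, hW⟩ := hT2 B
      have h0 : f (Rep.of (ρ.tprod (permRep k G (G ⧸ B)))) = 0 :=
        hind _ (ρ.tprod (permRep k G (G ⧸ B))) B W hcyc hpB hW
      show (- a B) * f (Rep.of (ρ.tprod (Rep.of (permRep k G (G ⧸ B))).ρ)) = 0
      rw [Rep.of_ρ, h0, mul_zero]
  rw [Finset.sum_eq_zero (fun B _ => hzero B), add_zero] at key
  -- the trivial term
  have hpt : f (Rep.of (ρ.tprod (Rep.of (permRep k G PUnit)).ρ)) = f (Rep.of ρ) := by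
    rw [Rep.of_ρ]
    obtain ⟨e, he⟩ := hT3
    exact hf.iso _ _ e he
  have hG : (Nat.card G : ℤ) ≠ 0 := by
    exact_mod_cast Nat.card_pos.ne'
  have key' : (Nat.card G : ℤ) * f (Rep.of (ρ.tprod (Rep.of (permRep k G PUnit)).ρ)) = 0 := key
  rw [hpt] at key'
  exact (mul_eq_zero.mp key').resolve_left hG

end Fermat.Agent.S56.IND

end
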