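import Fermat.Agent.S56.IND.Defs

set_option autoImplicit false
set_option linter.style.haveILetI false
set_option linter.unusedSectionVars false

/-!
# Package IND-1 = JH (helper74): composition factors as seen by additive functions
-/

noncomputable section

namespace Fermat.Agent.S56.IND.H74

open Module

variable {k : Type} [Field k] {G : Type} [Group G]

/-- An additive function vanishes on zero modules. -/
theorem IsAdditiveFn.zero_of_subsingleton {A : Type} [AddCommGroup A] {F : Rep.{0} k G → A}
    (hF : IsAdditiveFn k G F) {V : Type} [AddCommGroup V] [Module k V] [FiniteDimensional k V]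
    [Subsingleton V] (ρ : Representation k G V) : F (Rep.of ρ) = 0 := by
  have hW : ∀ g, (⊥ : Submodule k V) ≤ (⊥ : Submodule k V).comap (ρ g) := by
    intro g v hv
    rw [Submodule.mem_bot] at hv
    rw [Submodule.mem_comap, hv, map_zero]
    exact Submodule.zero_mem _
  have h := hF.add ρ ⊥ hW
  have e1 : F (Rep.of ρ) = F (Rep.of (ρ.subrepresentation ⊥ hW)) := by
    refine hF.iso ρ _ (LinearEquiv.ofSubsingleton V (⊥ : Submodule k V)) ?_
    intro g v
    exact Subsingleton.elim _ _
  have e2 : F (Rep.of ρ) = F (Rep.of (ρ.quotient ⊥ hW)) := by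
    haveI : Subsingleton (V ⧸ (⊥ : Submodule k V)) := by
      refine ⟨fun a b => ?_⟩
      obtain ⟨a', rfl⟩ := Submodule.Quotient.mk_surjective _ a
      obtain ⟨b', rfl⟩ := Submodule.Quotient.mk_surjective _ b
      rw [Subsingleton.elim a' b']
    refine hF.iso ρ _ (LinearEquiv.ofSubsingleton V (V ⧸ (⊥ : Submodule k V))) ?_
    intro g v
    exact Subsingleton.elim _ _
  rw [← e1, ← e2] at h
  have : F (Rep.of ρ) + 0 = F (Rep.of ρ) + F (Rep.of ρ) := by rw [add_zero]; exact h
  exact (add_left_cancel this).symm

/-- A nonzero finite-dimensional representation has a simple subrepresentation. -/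
theorem exists_simple_sub {V : Type} [AddCommGroup V] [Module k V] [FiniteDimensional k V]
    [Nontrivial V] (ρ : Representation k G V) :
    ∃ (W : Submodule k V) (hW : ∀ g, W ≤ W.comap (ρ g)), W ≠ ⊥ ∧
      IsSimpleRep (ρ.subrepresentation W hW) := by
  classical
  -- the minimal dimension of a nonzero stable subspace
  have hex : ∃ d : ℕ, ∃ W : Submodule k V, (∀ g, W ≤ W.comap (ρ g)) ∧ W ≠ ⊥ ∧ finrank k W = d :=
    ⟨finrank k (⊤ : Submodule k V), ⊤, fun g => le_top, top_ne_bot, rfl⟩
  obtain ⟨W, hW, hW0, hd⟩ := Nat.find_spec hex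
  have hmin : ∀ U : Submodule k V, (∀ g, U ≤ U.comap (ρ g)) → U ≠ ⊥ →
      Nat.find hex ≤ finrank k U := fun U hU hU0 =>
    Nat.find_min' hex ⟨U, hU, hU0, rfl⟩
  refine ⟨W, hW, hW0, ?_, ?_⟩
  · exact Submodule.nontrivial_iff_ne_bot.mpr hW0
  · intro U hU
    by_cases hU0 : U = ⊥
    · exact Or.inl hU0
    · right
      -- the image of `U` in `V`
      have hU' : ∀ g, U.map W.subtype ≤ (U.map W.subtype).comap (ρ g) := by
        intro g v hv
        obtain ⟨u, hu, rfl⟩ := Submodule.mem_map.mp hv
        rw [Submodule.mem_comap]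
        refine Submodule.mem_map.mpr ⟨(ρ.subrepresentation W hW) g u, hU g hu, ?_⟩
        rfl
      have hU'0 : U.map W.subtype ≠ ⊥ := by
        intro h
        apply hU0
        rw [Submodule.eq_bot_iff]
        intro u hu
        have h1 : W.subtype u ∈ U.map W.subtype := Submodule.mem_map_of_mem hu
        rw [h, Submodule.mem_bot] at h1
        exact W.subtype_injective (h1.trans (map_zero _).symm)
      have h1 := hmin _ hU' hU'0
      have h2 : finrank k (U.map W.subtype) = finrank k U :=
        LinearEquiv.finrank_eq (Submodule.equivMapOfInjective W.subtype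
          W.subtype_injective U).symm
      have h3 : finrank k W ≤ finrank k U := by
        rw [← h2, hd]
        exact h1
      exact Submodule.eq_top_of_finrank_eq (le_antisymm (Submodule.finrank_le U) h3)

theorem jh_aux : ∀ (d : ℕ) (V : Type) [AddCommGroup V] [Module k V] [FiniteDimensional k V]
    (ρ : Representation k G V), finrank k V = d →
    ∃ (n : ℕ) (S : Fin n → Rep.{0} k G), (∀ i, FiniteDimensional k (S i)) ∧
      (∀ i, IsSimpleRep (S i).ρ) ∧
      ∀ (A : Type) [AddCommGroup A] (F : Rep.{0} k G → A), IsAdditiveFn k G F →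
        F (Rep.of ρ) = ∑ i, F (S i) := by
  intro d
  induction d using Nat.strong_induction_on with
  | _ d ih =>
    intro V _ _ _ ρ hd
    by_cases hV : Subsingleton V
    · refine ⟨0, Fin.elim0, fun i => i.elim0, fun i => i.elim0, ?_⟩
      intro A _ F hF
      rw [Finset.univ_eq_empty, Finset.sum_empty]
      exact IsAdditiveFn.zero_of_subsingleton hF ρ
    · haveI : Nontrivial V := not_subsingleton_iff_nontrivial.mp hV
      obtain ⟨W, hW, hW0, hsimple⟩ := exists_simple_sub ρ
      have hlt : finrank k (V ⧸ W) < d := by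
        have h1 := Submodule.finrank_quotient_add_finrank W
        have h2 : 0 < finrank k W := by
          rw [Module.finrank_pos_iff]
          exact Submodule.nontrivial_iff_ne_bot.mpr hW0
        omega
      obtain ⟨n, S, hfd, hS, hsum⟩ := ih _ hlt (V ⧸ W) (ρ.quotient W hW) rfl
      refine ⟨n + 1, Fin.cons (Rep.of (ρ.subrepresentation W hW)) S, ?_, ?_, ?_⟩
      · intro i
        refine Fin.cases ?_ (fun j => ?_) i
        · rw [Fin.cons_zero]
          exact (inferInstance : FiniteDimensional k W)
        · rw [Fin.cons_succ]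
          exact hfd j
      · intro i
        refine Fin.cases ?_ (fun j => ?_) i
        · rw [Fin.cons_zero]
          exact hsimple
        · rw [Fin.cons_succ]
          exact hS j
      · intro A _ F hF
        rw [Fin.sum_univ_succ, hF.add ρ W hW, hsum A F hF]
        simp only [Fin.cons_zero, Fin.cons_succ]

/-- **JH.** -/
theorem stmt_JH : Stmt_JH := by
  intro k _ G _ V _ _ _ ρ
  exact jh_aux (finrank k V) V ρ rfl

end Fermat.Agent.S56.IND.H74

end
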