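import Fermat.Agent.S56.IND.Defs

set_option autoImplicit false
set_option linter.style.haveILetI false
set_option linter.unusedSectionVars false

/-!
# Package IND-3 = TR (helper74): traces of non-isomorphic simple representations are independent

Route: Jacobson density (`jacobson_density`) for the semisimple module `Π i, S i`, the little
Wedderburn theorem for `End_G(S)` and the non-vanishing of the trace of a finite extension of
finite fields.
-/

noncomputable section

namespace Fermat.Agent.S56.IND.H74

open Module

/-! ### A linear endomorphism over an extension field with nonzero trace over the base -/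

/-- For a finite separable extension `D / k` and a nonzero `D`-vector space `M` there is a
`D`-linear endomorphism of `M` whose `k`-trace is nonzero. -/
theorem exists_trace_ne_zero (k : Type*) [Field k] (D : Type*) [Field D] [Algebra k D]
    [FiniteDimensional k D] [Algebra.IsSeparable k D] (M : Type*) [AddCommGroup M]
    [Module k M] [Module D M] [IsScalarTower k D M] [FiniteDimensional k M] [Nontrivial M] :
    ∃ f : M →ₗ[D] M, LinearMap.trace k M (f.restrictScalars k) ≠ 0 := by
  obtain ⟨v, hv⟩ := exists_ne (0 : M)
  obtain ⟨π, hπ⟩ := Module.Projective.exists_dual_eq_one D hv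
  have hne := Algebra.trace_ne_zero k D
  obtain ⟨d, hd⟩ : ∃ d : D, Algebra.trace k D d ≠ 0 := by
    by_contra h
    push Not at h
    exact hne (LinearMap.ext fun x => by simpa using h x)
  -- `f m = (π m * d) • v`
  let ι : D →ₗ[D] M := LinearMap.toSpanSingleton D M v
  let μ : D →ₗ[D] D := LinearMap.mulLeft D d
  refine ⟨ι ∘ₗ μ ∘ₗ π, ?_⟩
  have e : (ι ∘ₗ μ ∘ₗ π).restrictScalars k =
      (ι.restrictScalars k) ∘ₗ ((μ ∘ₗ π).restrictScalars k) := rfl
  rw [e, LinearMap.trace_comp_comm']
  have e2 : ((μ ∘ₗ π).restrictScalars k) ∘ₗ (ι.restrictScalars k) = Algebra.lmul k D d := by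
    ext x
    show d * π (x • v) = d * x
    rw [map_smul, hπ, smul_eq_mul, mul_one]
  rw [e2, ← Algebra.trace_apply]
  exact hd

/-! ### Simple modules over an algebra over a finite field -/

section Simple

variable (k : Type*) [Field k] (A : Type*) [Ring A] [Algebra k A]

/-- The `k`-linear endomorphism given by the action of `a`. -/
def actL (M : Type*) [AddCommGroup M] [Module k M] [Module A M] [IsScalarTower k A M] (a : A) :
    M →ₗ[k] M where
  toFun m := a • m
  map_add' := smul_add a
  map_smul' c m := by
    show a • c • m = c • a • m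
    rw [← algebraMap_smul A c m, ← algebraMap_smul A c (a • m), smul_smul, smul_smul,
      Algebra.commutes]

@[simp] theorem actL_apply (M : Type*) [AddCommGroup M] [Module k M] [Module A M]
    [IsScalarTower k A M] (a : A) (m : M) : actL k A M a m = a • m := rfl

/-- A simple module over an algebra over a finite field has an element acting with nonzero
trace. -/
theorem exists_actL_trace_ne_zero [Finite k] (M : Type*) [AddCommGroup M] [Module k M]
    [Module A M] [IsScalarTower k A M] [FiniteDimensional k M] [IsSimpleModule A M] :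
    ∃ a : A, LinearMap.trace k M (actL k A M a) ≠ 0 := by
  classical
  haveI : Finite M := Module.finite_of_finite k
  haveI : Fintype M := Fintype.ofFinite M
  haveI : Finite (Module.End A M) :=
    Finite.of_injective (fun f : Module.End A M => (f : M → M)) DFunLike.coe_injective
  haveI : SMulCommClass A k M := ⟨fun a c m => by
    rw [← algebraMap_smul A c m, ← algebraMap_smul A c (a • m), smul_smul, smul_smul,
      Algebra.commutes]⟩
  haveI : Nontrivial M := IsSimpleModule.nontrivial A M
  haveI : FiniteDimensional k (Module.End A M) := Module.Finite.of_finite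
  obtain ⟨f, hf⟩ := exists_trace_ne_zero k (Module.End A M) M
  obtain ⟨a, ha⟩ := jacobson_density (R := A) (M := M) f Finset.univ
  refine ⟨a, ?_⟩
  have e : actL k A M a = f.restrictScalars k := by
    ext m
    exact (ha m (Finset.mem_univ m)).symm
  rw [e]
  exact hf

end Simple

/-! ### Separation of non-isomorphic simple modules -/

section Sep

variable (A : Type*) [Ring A] {ι : Type*} [Fintype ι] [DecidableEq ι] (M : ι → Type*)
  [∀ i, AddCommGroup (M i)] [∀ i, Module A (M i)]

theorem apply_single_eq_zero (hne : ∀ i j, i ≠ j → ∀ f : M i →ₗ[A] M j, f = 0)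
    (ψ : (∀ i, M i) →ₗ[A] (∀ i, M i)) {i j : ι} (hij : i ≠ j) (x : M i) :
    ψ (Pi.single i x) j = 0 := by
  have h := hne i j hij ((LinearMap.proj j) ∘ₗ ψ ∘ₗ (LinearMap.single A M i))
  have h2 := congrArg (fun f : M i →ₗ[A] M j => f x) h
  simpa using h2

theorem apply_eq_apply_single (hne : ∀ i j, i ≠ j → ∀ f : M i →ₗ[A] M j, f = 0)
    (ψ : (∀ i, M i) →ₗ[A] (∀ i, M i)) (m : ∀ i, M i) (i₀ : ι) :
    ψ m i₀ = ψ (Pi.single i₀ (m i₀)) i₀ := by
  conv_lhs => rw [← Finset.univ_sum_single m]
  rw [map_sum, Finset.sum_apply]
  rw [Finset.sum_eq_single i₀]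
  · intro j _ hj
    exact apply_single_eq_zero A M hne ψ hj (m j)
  · intro h
    exact absurd (Finset.mem_univ i₀) h

/-- Separation: an element acting on `M i₀` like `a₀` and on the other `M j` by zero. -/
theorem exists_separating [∀ i, IsSimpleModule A (M i)] [∀ i, Finite (M i)]
    (hne : ∀ i j, i ≠ j → ∀ f : M i →ₗ[A] M j, f = 0) (i₀ : ι) (a₀ : A) :
    ∃ a : A, (∀ m : M i₀, a • m = a₀ • m) ∧ ∀ j, j ≠ i₀ → ∀ m : M j, a • m = 0 := by
  classical
  haveI : Fintype (∀ i, M i) := Fintype.ofFinite _
  let Φ : Module.End (Module.End A (∀ i, M i)) (∀ i, M i) :=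
    { toFun := fun m => Pi.single i₀ (a₀ • m i₀)
      map_add' := fun m m' => by
        rw [Pi.add_apply, smul_add, Pi.single_add]
      map_smul' := fun ψ m => by
        show Pi.single i₀ (a₀ • (ψ m) i₀) = ψ (Pi.single i₀ (a₀ • m i₀))
        rw [apply_eq_apply_single A M hne ψ m i₀]
        have e : (Pi.single i₀ (a₀ • m i₀) : ∀ i, M i) = a₀ • Pi.single i₀ (m i₀) := by
          rw [← Pi.single_smul]
        rw [e, map_smul]
        funext j
        by_cases hj : j = i₀
        · subst hj
          rw [Pi.single_eq_same, Pi.smul_apply]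
        · rw [Pi.single_eq_of_ne hj, Pi.smul_apply,
            apply_single_eq_zero A M hne ψ (Ne.symm hj), smul_zero] }
  obtain ⟨a, ha⟩ := jacobson_density (R := A) (M := ∀ i, M i) Φ Finset.univ
  refine ⟨a, fun m => ?_, fun j hj m => ?_⟩
  · have h := ha (Pi.single i₀ m) (Finset.mem_univ _)
    have h2 := congrFun h i₀
    have h3 : Φ (Pi.single i₀ m) = Pi.single i₀ (a₀ • (Pi.single i₀ m : ∀ i, M i) i₀) := rfl
    rw [h3, Pi.single_eq_same, Pi.single_eq_same, Pi.smul_apply, Pi.single_eq_same] at h2
    exact h2.symm
  · have h := ha (Pi.single j m) (Finset.mem_univ _)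
    have h2 := congrFun h j
    have h3 : Φ (Pi.single j m) = Pi.single i₀ (a₀ • (Pi.single j m : ∀ i, M i) i₀) := rfl
    rw [h3, Pi.single_eq_of_ne hj, Pi.smul_apply, Pi.single_eq_same] at h2
    exact h2.symm

end Sep

/-! ### Independence of traces, abstract form -/

section Abs

variable (k : Type*) [Field k] [Finite k] (A : Type*) [Ring A] [Algebra k A]
  {ι : Type*} [Fintype ι] (M : ι → Type*)
  [∀ i, AddCommGroup (M i)] [∀ i, Module k (M i)] [∀ i, Module A (M i)]
  [∀ i, IsScalarTower k A (M i)] [∀ i, FiniteDimensional k (M i)] [∀ i, IsSimpleModule A (M i)]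

theorem trace_indep_abs (hne : ∀ i j, i ≠ j → ∀ f : M i →ₗ[A] M j, f = 0) (c : ι → k)
    (hc : ∀ a : A, ∑ i, c i * LinearMap.trace k (M i) (actL k A (M i) a) = 0) :
    ∀ i, c i = 0 := by
  classical
  intro i₀
  haveI : ∀ i, Finite (M i) := fun i => Module.finite_of_finite k
  obtain ⟨a₀, ha₀⟩ := exists_actL_trace_ne_zero k A (M i₀)
  obtain ⟨a, ha1, ha2⟩ := exists_separating A M hne i₀ a₀
  have h := hc a
  rw [Finset.sum_eq_single i₀] at h
  · have e : actL k A (M i₀) a = actL k A (M i₀) a₀ := by
      ext m
      exact ha1 m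
    rw [e] at h
    exact (mul_eq_zero.mp h).resolve_right ha₀
  · intro j _ hj
    have e : actL k A (M j) a = 0 := by
      ext m
      exact ha2 j hj m
    rw [e, map_zero, mul_zero]
  · intro h'
    exact absurd (Finset.mem_univ i₀) h'

end Abs

/-! ### Representations -/

section Rep

open Representation

variable {k : Type} [Field k] {G : Type} [Group G]

theorem isSimpleModule_of_isSimpleRep {V : Type} [AddCommGroup V] [Module k V]
    (ρ : Representation k G V) (h : IsSimpleRep ρ) :
    IsSimpleModule (MonoidAlgebra k G) ρ.asModule := by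
  rw [← irreducible_iff_isSimpleModule_asModule]
  obtain ⟨hnt, hs⟩ := h
  refine @IsSimpleOrder.mk _ _ _ ⟨⟨⊥, ⊤, ?_⟩⟩ ?_
  · intro hbt
    have h2 : (⊥ : Submodule k V) = ⊤ := congrArg Subrepresentation.toSubmodule hbt
    exact bot_ne_top h2
  · intro σ
    rcases hs σ.toSubmodule (fun g v hv => σ.apply_mem_toSubmodule g hv) with h1 | h1
    · left
      exact Subrepresentation.toSubmodule_injective h1
    · right
      exact Subrepresentation.toSubmodule_injective h1

theorem of_smul_asModule {V : Type} [AddCommGroup V] [Module k V]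
    (ρ : Representation k G V) (g : G) (v : ρ.asModule) :
    (MonoidAlgebra.of k G g) • v = ρ.asModuleEquiv.symm (ρ g (ρ.asModuleEquiv v)) := by
  rw [asModuleEquiv_symm_map_rho, LinearEquiv.symm_apply_apply]

theorem actL_add (A : Type*) [Ring A] [Algebra k A] (M : Type*) [AddCommGroup M] [Module k M]
    [Module A M] [IsScalarTower k A M] (a b : A) :
    actL k A M (a + b) = actL k A M a + actL k A M b := by
  ext m
  exact add_smul a b m

theorem actL_smul (A : Type*) [Ring A] [Algebra k A] (M : Type*) [AddCommGroup M] [Module k M]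
    [Module A M] [IsScalarTower k A M] (c : k) (a : A) :
    actL k A M (c • a) = c • actL k A M a := by
  ext m
  exact smul_assoc c a m

theorem actL_zero (A : Type*) [Ring A] [Algebra k A] (M : Type*) [AddCommGroup M] [Module k M]
    [Module A M] [IsScalarTower k A M] :
    actL k A M (0 : A) = 0 := by
  ext m
  exact zero_smul A m

theorem trace_actL_of {V : Type} [AddCommGroup V] [Module k V] [FiniteDimensional k V]
    (ρ : Representation k G V) (g : G) :
    LinearMap.trace k ρ.asModule (actL k (MonoidAlgebra k G) ρ.asModule (MonoidAlgebra.of k G g)) =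
      LinearMap.trace k V (ρ g) := by
  have e : ρ g = ρ.asModuleEquiv.conj
      (actL k (MonoidAlgebra k G) ρ.asModule (MonoidAlgebra.of k G g)) := by
    ext v
    rw [LinearEquiv.conj_apply_apply, actL_apply, of_smul_asModule, LinearEquiv.apply_symm_apply,
      LinearEquiv.apply_symm_apply]
  rw [e, LinearMap.trace_conj']

/-- **TR.** -/
theorem stmt_TR : Stmt_TR := by
  intro k _ _ G _ _ ι _ S hfd hsimple hniso c hc
  haveI : ∀ i, FiniteDimensional k (S i).ρ.asModule := fun i =>
    (inferInstance : Module.Finite k (S i).ρ.asModule)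
  haveI : ∀ i, IsSimpleModule (MonoidAlgebra k G) (S i).ρ.asModule := fun i =>
    isSimpleModule_of_isSimpleRep (S i).ρ (hsimple i)
  refine trace_indep_abs k (MonoidAlgebra k G) (fun i => (S i).ρ.asModule) ?_ c ?_
  · intro i j hij f
    rcases LinearMap.bijective_or_eq_zero f with hb | h0
    · exfalso
      apply hniso i j hij
      let e0 : (S i).ρ.asModule ≃ₗ[MonoidAlgebra k G] (S j).ρ.asModule :=
        LinearEquiv.ofBijective f hb
      refine ⟨(S i).ρ.asModuleEquiv.symm ≪≫ₗ (e0.restrictScalars k) ≪≫ₗ (S j).ρ.asModuleEquiv,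
        fun g v => ?_⟩
      show (S j).ρ.asModuleEquiv (f ((S i).ρ.asModuleEquiv.symm ((S i).ρ g v))) =
        (S j).ρ g ((S j).ρ.asModuleEquiv (f ((S i).ρ.asModuleEquiv.symm v)))
      rw [asModuleEquiv_symm_map_rho, map_smul, of_smul_asModule, LinearEquiv.apply_symm_apply]
    · exact h0
  · intro a
    induction a using MonoidAlgebra.induction_linear with
    | zero => simp [actL_zero]
    | add x y hx hy =>
      simp only [actL_add, map_add, mul_add, Finset.sum_add_distrib, hx, hy, add_zero]
    | single g r =>
      have e : (MonoidAlgebra.single g r : MonoidAlgebra k G) = r • MonoidAlgebra.of k G g := by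
        rw [MonoidAlgebra.of_apply, MonoidAlgebra.smul_single, smul_eq_mul, mul_one]
      rw [e]
      simp only [actL_smul, map_smul, smul_eq_mul, trace_actL_of]
      have h := hc g
      calc ∑ i, c i * (r * LinearMap.trace k (S i) ((S i).ρ g))
          = r * ∑ i, c i * LinearMap.trace k (S i) ((S i).ρ g) := by
            rw [Finset.mul_sum]
            refine Finset.sum_congr rfl fun i _ => ?_
            ring
        _ = 0 := by rw [h, mul_zero]

end Rep

end Fermat.Agent.S56.IND.H74

end
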