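import Fermat.Agent.S56.IND.H74_BR
import Fermat.Agent.S56.IND.H74_TR
import Fermat.Agent.S56.IND.H74_JH

set_option autoImplicit false
set_option linter.style.haveILetI false
set_option linter.unusedSectionVars false
set_option linter.unusedVariables false

/-!
# Package IND-4 = BN (helper74): Brauer-Nesbitt

An integral linear relation between Brauer characters of finite-dimensional representations
holds for every additive function.
-/

noncomputable section

namespace Fermat.Agent.S56.IND.H74

open Module

variable {k : Type} [Field k] {G : Type} [Group G]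

/-! ### `RepIso` is an equivalence relation -/

theorem RepIso.refl {V : Type} [AddCommGroup V] [Module k V] (ρ : Representation k G V) :
    RepIso ρ ρ := ⟨LinearEquiv.refl k V, fun _ _ => rfl⟩

theorem RepIso.symm {V W : Type} [AddCommGroup V] [Module k V] [AddCommGroup W] [Module k W]
    {ρ : Representation k G V} {σ : Representation k G W} (h : RepIso ρ σ) : RepIso σ ρ := by
  obtain ⟨e, he⟩ := h
  refine ⟨e.symm, fun g w => ?_⟩
  apply e.injective
  rw [he, LinearEquiv.apply_symm_apply, LinearEquiv.apply_symm_apply]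

theorem RepIso.trans {V W U : Type} [AddCommGroup V] [Module k V] [AddCommGroup W] [Module k W]
    [AddCommGroup U] [Module k U]
    {ρ : Representation k G V} {σ : Representation k G W} {τ : Representation k G U}
    (h : RepIso ρ σ) (h' : RepIso σ τ) : RepIso ρ τ := by
  obtain ⟨e, he⟩ := h
  obtain ⟨e', he'⟩ := h'
  refine ⟨e.trans e', fun g v => ?_⟩
  show e' (e (ρ g v)) = τ g (e' (e v))
  rw [he, he']

/-- The setoid of isomorphism on a family of representations. -/
def isoSetoid {κ : Type} (T : κ → Rep.{0} k G) : Setoid κ where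
  r l l' := RepIso (T l).ρ (T l').ρ
  iseqv := ⟨fun l => RepIso.refl _, fun h => RepIso.symm h, fun h h' => RepIso.trans h h'⟩

/-! ### Independence of the Brauer characters of non-isomorphic simple representations -/

section Indep

variable (p : ℕ) [Fact p.Prime] [Finite k] [CharP k p] [Finite G]

theorem brauerFn_eq {V : Rep.{0} k G} [FiniteDimensional k V] :
    brauerFn p V = brauer p V.ρ := brauerFn_of p V.ρ

/-- If `∑ d_l β(T_l) = 0` for pairwise non-isomorphic simple `T_l` then `p ∣ d_l` for all `l`. -/
theorem dvd_of_relation {κ : Type} [Fintype κ] (T : κ → Rep.{0} k G)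
    (hfd : ∀ l, FiniteDimensional k (T l)) (hs : ∀ l, IsSimpleRep (T l).ρ)
    (hni : ∀ l l', l ≠ l' → ¬ RepIso (T l).ρ (T l').ρ) (d : κ → ℤ)
    (hd : ∀ g : G, ∑ l, d l • brauerFn p (T l) g = 0) : ∀ l, (p : ℤ) ∣ d l := by
  have key : ∀ l, ((d l : ℤ) : k) = 0 := by
    refine stmt_TR k G κ T hfd hs hni (fun l => ((d l : ℤ) : k)) ?_
    intro g
    have h := congrArg (WittVector.constantCoeff (p := p) (R := AlgebraicClosure k)) (hd g)
    rw [map_sum, map_zero] at h
    apply (algebraMap k (AlgebraicClosure k)).injective
    rw [map_sum, map_zero, ← h]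
    refine Finset.sum_congr rfl fun l _ => ?_
    haveI := hfd l
    rw [brauerFn_eq, zsmul_eq_mul, map_mul, map_intCast, map_mul, map_intCast,
      constantCoeff_brauer]
  intro l
  exact (CharP.intCast_eq_zero_iff k p (d l)).mp (key l)

/-- The Brauer characters of pairwise non-isomorphic simple representations are linearly
independent over `ℤ`. -/
theorem indep_of_relation {κ : Type} [Fintype κ] (T : κ → Rep.{0} k G)
    (hfd : ∀ l, FiniteDimensional k (T l)) (hs : ∀ l, IsSimpleRep (T l).ρ)
    (hni : ∀ l l', l ≠ l' → ¬ RepIso (T l).ρ (T l').ρ) :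
    ∀ (N : ℕ) (d : κ → ℤ), (∑ l, (d l).natAbs = N) →
      (∀ g : G, ∑ l, d l • brauerFn p (T l) g = 0) → ∀ l, d l = 0 := by
  have hp : p.Prime := Fact.out
  intro N
  induction N using Nat.strong_induction_on with
  | _ N ih =>
    intro d hN hd
    have hdvd := dvd_of_relation p T hfd hs hni d hd
    choose d' hd' using hdvd
    -- the relation for `d'`
    have hrel : ∀ g : G, ∑ l, d' l • brauerFn p (T l) g = 0 := by
      intro g
      have h := hd g
      have e : ∑ l, d l • brauerFn p (T l) g =
          (p : WK p k) * ∑ l, d' l • brauerFn p (T l) g := by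
        rw [Finset.mul_sum]
        refine Finset.sum_congr rfl fun l _ => ?_
        rw [hd' l, zsmul_eq_mul, zsmul_eq_mul]
        push_cast
        ring
      rw [e] at h
      exact (mul_eq_zero.mp h).resolve_left (WittVector.p_nonzero p _)
    by_cases hN0 : N = 0
    · intro l
      subst hN0
      have := (Finset.sum_eq_zero_iff.mp hN) l (Finset.mem_univ l)
      exact Int.natAbs_eq_zero.mp this
    · -- the sum for `d'` is smaller
      have hlt : ∑ l, (d' l).natAbs < N := by
        have hsum : ∑ l, (d l).natAbs = p * ∑ l, (d' l).natAbs := by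
          rw [Finset.mul_sum]
          refine Finset.sum_congr rfl fun l _ => ?_
          rw [hd' l, Int.natAbs_mul, Int.natAbs_natCast]
        rw [hN] at hsum
        have hpos : 0 < ∑ l, (d' l).natAbs := by
          rcases Nat.eq_zero_or_pos (∑ l, (d' l).natAbs) with h0 | h0
          · rw [h0, mul_zero] at hsum
            exact absurd hsum hN0
          · exact h0
        have h2 : 2 ≤ p := hp.two_le
        nlinarith
      have hz := ih _ hlt d' rfl hrel
      intro l
      rw [hd' l, hz l, mul_zero]

end Indep

/-! ### Relations between simple representations -/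

section Simple

variable (p : ℕ) [Fact p.Prime] [Finite k] [CharP k p] [Finite G]

/-- Brauer-Nesbitt for families of simple representations. -/
theorem bn_simple {κ : Type} [Fintype κ] (T : κ → Rep.{0} k G)
    (hfd : ∀ l, FiniteDimensional k (T l)) (hs : ∀ l, IsSimpleRep (T l).ρ) (d : κ → ℤ)
    (hd : ∀ g : G, ∑ l, d l • brauerFn p (T l) g = 0)
    (F : Rep.{0} k G → ℤ) (hF : IsAdditiveFn k G F) : ∑ l, d l * F (T l) = 0 := by
  classical
  let s : Setoid κ := isoSetoid T
  let Q := Quotient s
  let rep : Q → κ := fun q => Quotient.out q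
  have hrep : ∀ l : κ, RepIso (T l).ρ (T (rep (Quotient.mk s l))).ρ := by
    intro l
    have h : s.r (rep (Quotient.mk s l)) l := Quotient.exact (Quotient.out_eq (Quotient.mk s l))
    exact RepIso.symm h
  -- invariance of the Brauer character and of `F` under isomorphism
  have hβ : ∀ l : κ, brauerFn p (T l) = brauerFn p (T (rep (Quotient.mk s l))) := by
    intro l
    obtain ⟨e, he⟩ := hrep l
    haveI := hfd l
    exact (stmt_BR p k G).1.iso (T l).ρ (T (rep (Quotient.mk s l))).ρ e he
  have hFi : ∀ l : κ, F (T l) = F (T (rep (Quotient.mk s l))) := by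
    intro l
    obtain ⟨e, he⟩ := hrep l
    haveI := hfd l
    exact hF.iso (T l).ρ (T (rep (Quotient.mk s l))).ρ e he
  -- the coefficients on the quotient
  let D : Q → ℤ := fun q => ∑ l ∈ Finset.univ.filter (fun l => Quotient.mk s l = q), d l
  have hD : ∀ g : G, ∑ q, D q • brauerFn p (T (rep q)) g = 0 := by
    intro g
    rw [← hd g, ← Finset.sum_fiberwise Finset.univ (fun l => Quotient.mk s l)
      (fun l => d l • brauerFn p (T l) g)]
    refine Finset.sum_congr rfl fun q _ => ?_
    show (∑ l ∈ Finset.univ.filter (fun l => Quotient.mk s l = q), d l) • _ = _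
    rw [Finset.sum_smul]
    refine Finset.sum_congr rfl fun l hl => ?_
    rw [Finset.mem_filter] at hl
    rw [hβ l, hl.2]
  have hni : ∀ q q' : Q, q ≠ q' → ¬ RepIso (T (rep q)).ρ (T (rep q')).ρ := by
    intro q q' hqq h
    apply hqq
    have h2 : Quotient.mk s (rep q) = Quotient.mk s (rep q') := Quotient.sound h
    rw [Quotient.out_eq, Quotient.out_eq] at h2
    exact h2
  have hz := indep_of_relation p (fun q => T (rep q)) (fun q => hfd _) (fun q => hs _) hni _ D rfl hD
  rw [← Finset.sum_fiberwise Finset.univ (fun l => Quotient.mk s l) (fun l => d l * F (T l))]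
  refine Finset.sum_eq_zero fun q _ => ?_
  have e : ∑ l ∈ Finset.univ.filter (fun l => Quotient.mk s l = q), d l * F (T l) =
      D q * F (T (rep q)) := by
    show _ = (∑ l ∈ Finset.univ.filter (fun l => Quotient.mk s l = q), d l) * _
    rw [Finset.sum_mul]
    refine Finset.sum_congr rfl fun l hl => ?_
    rw [Finset.mem_filter] at hl
    rw [hFi l, hl.2]
  rw [e, hz q, zero_mul]

end Simple

/-- **BN.** -/
theorem stmt_BN : Stmt_BN := by
  classical
  intro p _ k _ _ _ G _ _ ι _ V hfd c hc F hF
  -- composition factors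
  have hJH : ∀ i, ∃ (n : ℕ) (S : Fin n → Rep.{0} k G), (∀ j, FiniteDimensional k (S j)) ∧
      (∀ j, IsSimpleRep (S j).ρ) ∧
      ∀ (A : Type) [AddCommGroup A] (F : Rep.{0} k G → A), IsAdditiveFn k G F →
        F (V i) = ∑ j, F (S j) := by
    intro i
    haveI := hfd i
    exact stmt_JH k G (V i) (V i).ρ
  choose n S hSfd hSs hSsum using hJH
  let T : (Σ i, Fin (n i)) → Rep.{0} k G := fun x => S x.1 x.2
  let d : (Σ i, Fin (n i)) → ℤ := fun x => c x.1
  have hβ := (stmt_BR p k G).1
  have hd : ∀ g : G, ∑ x, d x • brauerFn p (T x) g = 0 := by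
    intro g
    rw [← hc g, Fintype.sum_sigma]
    refine Finset.sum_congr rfl fun i _ => ?_
    show ∑ j, c i • brauerFn p (S i j) g = _
    rw [← Finset.smul_sum]
    congr 1
    have h := hSsum i (G → WK p k) (brauerFn p) hβ
    rw [h, Finset.sum_apply]
  have key := bn_simple p T (fun x => hSfd x.1 x.2) (fun x => hSs x.1 x.2) d hd F hF
  rw [Fintype.sum_sigma] at key
  rw [← key]
  refine Finset.sum_congr rfl fun i _ => ?_
  show c i * F (V i) = ∑ j, c i * F (S i j)
  rw [← Finset.mul_sum, hSsum i ℤ F hF]

end Fermat.Agent.S56.IND.H74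

end
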