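import Fermat.Agent.S56.IND.Defs

/-!
# S56 / GW-CORE / IND, leaf IND-6 = ART (helper1): `Stmt_ART`

Artin's formula for permutation characters: there are integers `a B`, supported on the cyclic
subgroups of order prime to `p`, with `∑_B a B · #Fix(x, G/B) = #G` for every `x` of order prime
to `p`.

Proof.  `#B · #Fix(x, G/B) = #{t : t⁻¹ x t ∈ B}` (`card_mul_card_fixed`).  By downward induction
on the order there is `b`, supported on the cyclic `p'`-subgroups, with `∑_{B ≥ Y} b B = 1` for
every cyclic `p'`-subgroup `Y` (`exists_moebius`).  With `a B = b B · #B`: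
`∑_B a B #Fix(x, G/B) = ∑_t ∑_{B ∋ t⁻¹ x t} b B = ∑_t 1 = #G`.
-/

set_option autoImplicit false

noncomputable section

namespace Fermat.Agent.S56.IND.H01

open Classical

variable {G : Type} [Group G]

/-- Cyclic of order prime to `p`. -/
def IsCP (p : ℕ) (B : Subgroup G) : Prop := IsCyclic B ∧ ¬ p ∣ Nat.card B

theorem isCP_zpowers {p : ℕ} {x : G} (hx : ¬ p ∣ orderOf x) (t : G) :
    IsCP p (Subgroup.zpowers (t⁻¹ * x * t)) := by
  refine ⟨inferInstance, ?_⟩
  rw [Nat.card_zpowers]
  have : t⁻¹ * x * t = MulAut.conj t⁻¹ x := by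
    rw [MulAut.conj_apply, inv_inv]
  rw [this, MulEquiv.orderOf_eq]
  exact hx

/-- `x` fixes the coset `t B` iff `t⁻¹ x t ∈ B`. -/
theorem smul_mk_eq_iff (B : Subgroup G) (x t : G) :
    x • (t : G ⧸ B) = (t : G ⧸ B) ↔ t⁻¹ * x * t ∈ B := by
  rw [MulAction.Quotient.smul_coe, smul_eq_mul, QuotientGroup.eq]
  have e : t⁻¹ * x * t = ((x * t)⁻¹ * t)⁻¹ := by group
  rw [e, inv_mem_iff]

/-- `#B · #Fix(x, G/B) = #{t : t⁻¹ x t ∈ B}`. -/
theorem card_mul_card_fixed [Finite G] (B : Subgroup G) (x : G) :
    Nat.card B * Nat.card {q : G ⧸ B // x • q = q} = Nat.card {t : G // t⁻¹ * x * t ∈ B} := by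
  have e := QuotientGroup.preimageMkEquivSubgroupProdSet B {q : G ⧸ B | x • q = q}
  have h1 : Nat.card ↥(QuotientGroup.mk ⁻¹' {q : G ⧸ B | x • q = q})
      = Nat.card B * Nat.card {q : G ⧸ B // x • q = q} := by
    rw [Nat.card_congr e, Nat.card_prod]
    rfl
  rw [← h1]
  refine Nat.card_congr (Equiv.subtypeEquivRight fun t => ?_)
  rw [Set.mem_preimage, Set.mem_ofPred_eq]
  exact smul_mk_eq_iff B x t

/-- The Möbius-type function of the poset of cyclic `p'`-subgroups. -/
theorem exists_moebius [Finite G] [Fintype (Subgroup G)] (p : ℕ) :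
    ∃ b : Subgroup G → ℤ, (∀ B, b B ≠ 0 → IsCP p B) ∧
      ∀ Y : Subgroup G, IsCP p Y → ∑ B : Subgroup G, (if Y ≤ B then b B else 0) = 1 := by
  have key : ∀ j : ℕ, ∃ b : Subgroup G → ℤ,
      (∀ B, b B ≠ 0 → IsCP p B ∧ Nat.card G + 1 ≤ Nat.card B + j) ∧
      ∀ Y : Subgroup G, IsCP p Y → Nat.card G + 1 ≤ Nat.card Y + j →
        ∑ B : Subgroup G, (if Y ≤ B then b B else 0) = 1 := by
    intro j
    induction j with
    | zero =>
      refine ⟨fun _ => 0, fun B hB => absurd rfl hB, fun Y _ hY => ?_⟩
      have := Subgroup.card_le_card_group Y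
      omega
    | succ j ih =>
      obtain ⟨b, hb, hsum⟩ := ih
      -- the new values, on the subgroups of order `#G - j`
      set b' : Subgroup G → ℤ := fun B =>
        if Nat.card B + (j + 1) = Nat.card G + 1 ∧ IsCP p B then
          1 - ∑ B' : Subgroup G, (if B < B' then b B' else 0)
        else b B with hb'
      have hlt : ∀ {Y B : Subgroup G}, Y < B → Nat.card Y < Nat.card B := by
        intro Y B hYB
        by_contra hcon
        push Not at hcon
        exact (ne_of_lt hYB) (Subgroup.eq_of_le_of_card_ge hYB.le hcon)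
      have hb'eq : ∀ B : Subgroup G, Nat.card G + 1 ≤ Nat.card B + j → b' B = b B := by
        intro B hB
        simp only [hb']
        rw [if_neg]
        rintro ⟨h, -⟩
        omega
      refine ⟨b', ?_, ?_⟩
      · intro B hB
        by_cases hc : Nat.card B + (j + 1) = Nat.card G + 1 ∧ IsCP p B
        · exact ⟨hc.2, by omega⟩
        · simp only [hb'] at hB
          rw [if_neg hc] at hB
          obtain ⟨h1, h2⟩ := hb B hB
          exact ⟨h1, by omega⟩
      · intro Y hY hcard
        by_cases hc : Nat.card Y + (j + 1) = Nat.card G + 1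
        · -- the new layer
          have e1 : ∀ B : Subgroup G, (if Y ≤ B then b' B else 0)
              = (if B = Y then b' Y else 0) + (if Y < B then b B else 0) := by
            intro B
            by_cases hYB : Y < B
            · have hne : B ≠ Y := (ne_of_lt hYB).symm
              rw [if_pos hYB.le, if_neg hne, if_pos hYB, zero_add]
              exact hb'eq B (by have := hlt hYB; omega)
            · by_cases hBY : B = Y
              · subst hBY
                rw [if_pos le_rfl, if_pos rfl, if_neg hYB, add_zero]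
              · have : ¬ Y ≤ B := fun hle => hYB (lt_of_le_of_ne hle (Ne.symm hBY))
                rw [if_neg this, if_neg hBY, if_neg hYB, add_zero]
          rw [Finset.sum_congr rfl fun B _ => e1 B, Finset.sum_add_distrib,
            Finset.sum_ite_eq' Finset.univ Y, if_pos (Finset.mem_univ Y)]
          have : b' Y = 1 - ∑ B' : Subgroup G, (if Y < B' then b B' else 0) := by
            simp only [hb']
            rw [if_pos ⟨hc, hY⟩]
          rw [this]
          ring
        · -- the old layers
          have hY' : Nat.card G + 1 ≤ Nat.card Y + j := by omega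
          rw [← hsum Y hY hY']
          refine Finset.sum_congr rfl fun B _ => ?_
          by_cases hYB : Y ≤ B
          · rw [if_pos hYB, if_pos hYB]
            exact hb'eq B (by have := Subgroup.card_le_of_le hYB; omega)
          · rw [if_neg hYB, if_neg hYB]
  obtain ⟨b, hb, hsum⟩ := key (Nat.card G + 1)
  exact ⟨b, fun B hB => (hb B hB).1, fun Y hY => hsum Y hY (by omega)⟩

/-- Artin's formula, for any `Fintype` structure on the set of subgroups. -/
theorem artin [Fintype G] [Fintype (Subgroup G)] (p : ℕ) :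
    ∃ a : Subgroup G → ℤ, (∀ B, a B ≠ 0 → IsCyclic B ∧ ¬ p ∣ Nat.card B) ∧
      ∀ x : G, ¬ p ∣ orderOf x →
        ∑ B : Subgroup G, a B * (Nat.card {q : G ⧸ B // x • q = q} : ℤ) = Nat.card G := by
  obtain ⟨b, hb, hsum⟩ := exists_moebius (G := G) p
  refine ⟨fun B => b B * Nat.card B, ?_, ?_⟩
  · intro B hB
    exact hb B fun h0 => hB (by show b B * _ = 0; rw [h0, zero_mul])
  · intro x hx
    have e1 : ∀ B : Subgroup G,
        b B * (Nat.card B : ℤ) * (Nat.card {q : G ⧸ B // x • q = q} : ℤ)
          = ∑ t : G, (if Subgroup.zpowers (t⁻¹ * x * t) ≤ B then b B else 0) := by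
      intro B
      rw [mul_assoc, ← Nat.cast_mul, card_mul_card_fixed B x, Nat.card_eq_fintype_card,
        Fintype.card_subtype, Finset.card_filter, Nat.cast_sum, Finset.mul_sum]
      refine Finset.sum_congr rfl fun t _ => ?_
      rw [Subgroup.zpowers_le]
      split_ifs <;> simp
    rw [Finset.sum_congr rfl fun B _ => e1 B, Finset.sum_comm,
      Finset.sum_congr rfl fun t _ => hsum _ (isCP_zpowers hx t)]
    simp [Nat.card_eq_fintype_card]

/-- **IND-6 = ART.** -/
theorem stmt_ART : Stmt_ART := by
  intro p G _ _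
  exact artin p

end Fermat.Agent.S56.IND.H01

end
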