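import Fermat.Agent.S56.IND.Defs

/-!
# Package IND-7 = TENS (helper54): tensoring with a fixed representation

* `tens_additive` : `W ↦ f (V ⊗ W)` is additive and isomorphism-invariant if `f` is;
* `tens_induced`  : `V ⊗ k[G/B]` is induced from `B` (from the subspace `V ⊗ e_B`);
* `tens_punit`    : `V ⊗ k[pt] ≅ V`;
* `stmt_TENS : Stmt_TENS`.
-/

set_option autoImplicit false
set_option linter.unusedSectionVars false
set_option linter.style.haveILetI false

noncomputable section

namespace Fermat.Agent.S56.IND.H54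

open scoped TensorProduct
open Fermat.Agent.S56.IND

variable {k : Type} [Field k] {G : Type} [Group G]
variable {V : Type} [AddCommGroup V] [Module k V] [FiniteDimensional k V]
  (ρ : Representation k G V)

/-! ### Additivity -/

theorem tens_iso {V₁ W₁ : Type} [AddCommGroup V₁] [Module k V₁] [AddCommGroup W₁] [Module k W₁]
    [FiniteDimensional k V₁] (f : Rep.{0} k G → ℤ) (hf : IsAdditiveFn k G f)
    (ρ₁ : Representation k G V₁) (σ : Representation k G W₁) (e : V₁ ≃ₗ[k] W₁)
    (he : ∀ g v, e (ρ₁ g v) = σ g (e v)) :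
    f (Rep.of (ρ.tprod ρ₁)) = f (Rep.of (ρ.tprod σ)) := by
  refine hf.iso (ρ.tprod ρ₁) (ρ.tprod σ) (TensorProduct.congr (LinearEquiv.refl k V) e) ?_
  intro g x
  induction x using TensorProduct.induction_on with
  | zero => simp
  | tmul v w =>
    simp only [Representation.tprod_apply, TensorProduct.map_tmul, TensorProduct.congr_tmul,
      LinearEquiv.refl_apply, he]
  | add x y hx hy => simp only [map_add, hx, hy]

theorem tens_add {V₁ : Type} [AddCommGroup V₁] [Module k V₁] [FiniteDimensional k V₁]
    (f : Rep.{0} k G → ℤ) (hf : IsAdditiveFn k G f)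
    (ρ₁ : Representation k G V₁) (W : Submodule k V₁) (hW : ∀ g, W ≤ W.comap (ρ₁ g)) :
    f (Rep.of (ρ.tprod ρ₁)) = f (Rep.of (ρ.tprod (ρ₁.subrepresentation W hW))) +
      f (Rep.of (ρ.tprod (ρ₁.quotient W hW))) := by
  set T : Submodule k (V ⊗[k] V₁) :=
    LinearMap.range (TensorProduct.map (LinearMap.id : V →ₗ[k] V) W.subtype) with hTdef
  have hcomm : ∀ (g : G) (x : V ⊗[k] W),
      TensorProduct.map (LinearMap.id : V →ₗ[k] V) W.subtype
        ((ρ.tprod (ρ₁.subrepresentation W hW)) g x) =
      (ρ.tprod ρ₁) g (TensorProduct.map (LinearMap.id : V →ₗ[k] V) W.subtype x) := by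
    intro g x
    induction x using TensorProduct.induction_on with
    | zero => simp
    | tmul v w =>
      simp only [Representation.tprod_apply, TensorProduct.map_tmul, LinearMap.id_coe, id_eq,
        Submodule.subtype_apply]
      rfl
    | add x y hx hy => simp only [map_add, hx, hy]
  have hT : ∀ g, T ≤ T.comap ((ρ.tprod ρ₁) g) := by
    rintro g _ ⟨x, rfl⟩
    rw [Submodule.mem_comap, ← hcomm]
    exact ⟨_, rfl⟩
  have hinj : Function.Injective (TensorProduct.map (LinearMap.id : V →ₗ[k] V) W.subtype) :=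
    Module.Flat.lTensor_preserves_injective_linearMap (M := V) W.subtype
      (Submodule.injective_subtype W)
  rw [hf.add (ρ.tprod ρ₁) T hT]
  congr 1
  · symm
    refine hf.iso (ρ.tprod (ρ₁.subrepresentation W hW)) ((ρ.tprod ρ₁).subrepresentation T hT)
      (LinearEquiv.ofInjective _ hinj) ?_
    intro g x
    apply Subtype.ext
    exact hcomm g x
  · symm
    refine hf.iso (ρ.tprod (ρ₁.quotient W hW)) ((ρ.tprod ρ₁).quotient T hT)
      (TensorProduct.tensorQuotientEquiv V W) ?_
    intro g x
    induction x using TensorProduct.induction_on with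
    | zero => simp
    | tmul v w =>
      obtain ⟨w, rfl⟩ := Submodule.Quotient.mk_surjective W w
      rfl
    | add x y hx hy => simp only [map_add, hx, hy]

theorem tens_additive (f : Rep.{0} k G → ℤ) (hf : IsAdditiveFn k G f) :
    IsAdditiveFn k G (fun W : Rep.{0} k G => f (Rep.of (ρ.tprod W.ρ))) := by
  constructor
  · intro V₁ W₁ _ _ _ _ _ ρ₁ σ e he
    exact tens_iso ρ f hf ρ₁ σ e he
  · intro V₁ _ _ _ ρ₁ W hW
    exact tens_add ρ f hf ρ₁ W hW

/-! ### `V ⊗ k[pt] ≅ V` -/

theorem tens_punit : RepIso (ρ.tprod (permRep k G PUnit)) ρ := by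
  refine ⟨(TensorProduct.congr (LinearEquiv.refl k V) (LinearEquiv.funUnique PUnit k k)) ≪≫ₗ
    TensorProduct.rid k V, ?_⟩
  intro g x
  induction x using TensorProduct.induction_on with
  | zero => simp
  | tmul v φ =>
    simp only [Representation.tprod_apply, TensorProduct.map_tmul, LinearEquiv.trans_apply,
      TensorProduct.congr_tmul, LinearEquiv.refl_apply, TensorProduct.rid_tmul,
      LinearEquiv.funUnique_apply, Function.eval, map_smul]
    rfl
  | add x y hx hy => simp only [map_add, hx, hy]

/-! ### `V ⊗ k[G/B]` is induced from `B` -/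

section Induced

variable [Finite G] (B : Subgroup G)

open Classical in
/-- The indicator function of the coset `q`. -/
def eCoset (k : Type) [Field k] {G : Type} [Group G] (B : Subgroup G) (q : G ⧸ B) :
    G ⧸ B → k := Pi.single q 1

theorem permRep_eCoset (g : G) (q : G ⧸ B) :
    permRep k G (G ⧸ B) g (eCoset k B q) = eCoset k B (g • q) := by
  classical
  funext x
  rw [permRep_apply]
  unfold eCoset
  by_cases h : x = g • q
  · subst h
    rw [inv_smul_smul, Pi.single_eq_same, Pi.single_eq_same]
  · have h' : g⁻¹ • x ≠ q := by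
      intro h2
      apply h
      rw [← h2, smul_inv_smul]
    rw [Pi.single_eq_of_ne h, Pi.single_eq_of_ne h']

/-- The map `v ↦ v ⊗ e_B`. -/
def tensE : V →ₗ[k] V ⊗[k] (G ⧸ B → k) :=
  (TensorProduct.mk k V (G ⧸ B → k)).flip (eCoset k B ((1 : G) : G ⧸ B))

@[simp] theorem tensE_apply (v : V) :
    tensE (k := k) B v = v ⊗ₜ[k] eCoset k B ((1 : G) : G ⧸ B) := rfl

theorem tensE_injective : Function.Injective (tensE (k := k) (V := V) B) := by
  classical
  let ev : (G ⧸ B → k) →ₗ[k] k := LinearMap.proj ((1 : G) : G ⧸ B)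
  have hleft : ∀ v : V, TensorProduct.rid k V (LinearMap.lTensor V ev (tensE B v)) = v := by
    intro v
    rw [tensE_apply, LinearMap.lTensor_tmul, TensorProduct.rid_tmul]
    have : ev (eCoset k B ((1 : G) : G ⧸ B)) = 1 := by
      show eCoset k B ((1 : G) : G ⧸ B) ((1 : G) : G ⧸ B) = 1
      unfold eCoset
      rw [Pi.single_eq_same]
    rw [this, one_smul]
  intro v w hvw
  rw [← hleft v, ← hleft w, hvw]

theorem tens_induced :
    IsInducedFrom (ρ.tprod (permRep k G (G ⧸ B))) B (LinearMap.range (tensE (k := k) (V := V) B)) := by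
  classical
  haveI : Fintype (G ⧸ B) := Fintype.ofFinite _
  refine ⟨?_, ?_, ?_⟩
  · rintro b hb _ ⟨v, rfl⟩
    refine ⟨ρ b v, ?_⟩
    rw [tensE_apply, tensE_apply, Representation.tprod_apply, TensorProduct.map_tmul,
      permRep_eCoset]
    congr 2
    symm
    show ((b * 1 : G) : G ⧸ B) = ((1 : G) : G ⧸ B)
    rw [mul_one]
    exact QuotientGroup.eq.mpr (by simpa using B.inv_mem hb)
  · rw [eq_top_iff]
    intro x _
    have hpure : ∀ (v : V) (q : G ⧸ B), v ⊗ₜ[k] eCoset k B q ∈
        ⨆ g : G, (LinearMap.range (tensE (k := k) (V := V) B)).map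
          ((ρ.tprod (permRep k G (G ⧸ B))) g) := by
      intro v q
      obtain ⟨g, rfl⟩ := QuotientGroup.mk_surjective q
      apply Submodule.mem_iSup_of_mem g
      refine ⟨tensE B (ρ g⁻¹ v), ⟨_, rfl⟩, ?_⟩
      rw [tensE_apply, Representation.tprod_apply, TensorProduct.map_tmul, permRep_eCoset]
      have h1 : ρ g (ρ g⁻¹ v) = v := by
        rw [← Module.End.mul_apply, ← map_mul, mul_inv_cancel, map_one, Module.End.one_apply]
      rw [h1]
      congr 2
      show ((g * 1 : G) : G ⧸ B) = (g : G ⧸ B)
      rw [mul_one]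
    induction x using TensorProduct.induction_on with
    | zero => exact zero_mem _
    | tmul v φ =>
      have hφ : φ = ∑ q : G ⧸ B, φ q • eCoset k B q := by
        funext x
        rw [Finset.sum_apply]
        unfold eCoset
        simp [Pi.single_apply]
      rw [hφ, TensorProduct.tmul_sum]
      refine Submodule.sum_mem _ fun q _ => ?_
      rw [TensorProduct.tmul_smul]
      exact Submodule.smul_mem _ _ (hpure v q)
    | add x y hx hy => exact add_mem (hx trivial) (hy trivial)
  · rw [LinearMap.finrank_range_of_inj (tensE_injective B), Module.finrank_tensorProduct,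
      Module.finrank_fintype_fun_eq_card, Subgroup.index, Nat.card_eq_fintype_card, mul_comm]

end Induced

/-- **IND-7 = TENS.** -/
theorem stmt_TENS : Stmt_TENS := by
  intro k _ G _ _ V _ _ _ ρ
  exact ⟨fun f hf => tens_additive ρ f hf, fun B => ⟨_, tens_induced ρ B⟩, tens_punit ρ⟩

end Fermat.Agent.S56.IND.H54

end
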