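import Fermat.Agent.S56.IND.FinalOf
import Fermat.Agent.S56.IND.H01_ART
import Fermat.Agent.S56.IND.H54_Tens

/-!
# S56 / GW-CORE / IND: final assembly

`stmt_IND : Stmt_IND` (modular Artin induction): an additive, isomorphism-invariant integer
function on finite-dimensional representations of a finite group over a field of characteristic
`p`, vanishing on every representation induced from a cyclic subgroup of order prime to `p`,
vanishes identically.

Pieces: BR, BN, PERM (helper74), ART (helper1), TENS (helper54), assembly `Asm.lean`.
-/

set_option autoImplicit false

namespace Fermat.Agent.S56.IND

theorem stmt_IND : Stmt_IND :=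
  stmt_IND_of_art_tens H01.stmt_ART H54.stmt_TENS

end Fermat.Agent.S56.IND
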