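import Fermat.Agent.S56.IND.Asm
import Fermat.Agent.S56.IND.H74_BN
import Fermat.Agent.S56.IND.H74_PERM

set_option autoImplicit false

/-!
# Package IND: `Stmt_IND` from `Stmt_ART` and `Stmt_TENS` (helper74)
-/

namespace Fermat.Agent.S56.IND

/-- **IND** from ART and TENS (everything else is proved). -/
theorem stmt_IND_of_art_tens (hART : Stmt_ART) (hTENS : Stmt_TENS) : Stmt_IND :=
  stmt_IND_of H74.stmt_BR H74.stmt_BN H74.stmt_PERM hART hTENS

end Fermat.Agent.S56.IND
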