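import Fermat.Agent.S56.IND.Defs

/-!
# S56 / GW-CORE / IND, leaf IND-1 = JH (helper1): `Stmt_JH`

Every finite-dimensional representation has a list of simple "composition factors" `S i` such
that `F V = ∑ i, F (S i)` for ALL additive functions `F` (any target group).

Proof: induction on the dimension; a stable nonzero subspace of minimal dimension is simple.
-/

set_option autoImplicit false
set_option linter.style.haveILetI false

noncomputable section

namespace Fermat.Agent.S56.IND.H01

variable {k : Type} [Field k] {G : Type} [Group G]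

/-- An additive function vanishes on the zero representation. -/
theorem additive_subsingleton {A : Type} [AddCommGroup A] {F : Rep.{0} k G → A}
    (hF : IsAdditiveFn k G F) {V : Type} [AddCommGroup V] [Module k V] [FiniteDimensional k V]
    (ρ : Representation k G V) [Subsingleton V] : F (Rep.of ρ) = 0 := by
  have hW : ∀ g, (⊥ : Submodule k V) ≤ (⊥ : Submodule k V).comap (ρ g) := by
    intro g v hv
    rw [Submodule.mem_bot] at hv
    rw [Submodule.mem_comap, hv, map_zero]
    exact Submodule.zero_mem _
  have h := hF.add ρ ⊥ hW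
  have e1 : F (Rep.of (ρ.subrepresentation ⊥ hW)) = F (Rep.of ρ) := by
    refine hF.iso _ _ (LinearEquiv.ofSubsingleton _ _) fun g v => ?_
    exact Subsingleton.elim _ _
  have e2 : F (Rep.of (ρ.quotient ⊥ hW)) = F (Rep.of ρ) := by
    haveI : Subsingleton (V ⧸ (⊥ : Submodule k V)) :=
      ⟨fun a b => by
        obtain ⟨a, rfl⟩ := Submodule.Quotient.mk_surjective _ a
        obtain ⟨b, rfl⟩ := Submodule.Quotient.mk_surjective _ b
        rw [Subsingleton.elim a b]⟩
    refine hF.iso _ _ (LinearEquiv.ofSubsingleton _ _) fun g v => ?_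
    exact Subsingleton.elim _ _
  rw [e1, e2] at h
  have := congrArg (fun a => a - F (Rep.of ρ)) h
  simp only [sub_self, add_sub_cancel_right] at this
  exact this.symm

/-- A stable nonzero subspace of minimal dimension. -/
theorem exists_minimal_stable {V : Type} [AddCommGroup V] [Module k V] [FiniteDimensional k V]
    (ρ : Representation k G V) [Nontrivial V] :
    ∃ W : Submodule k V, (∀ g, W ≤ W.comap (ρ g)) ∧ W ≠ ⊥ ∧
      ∀ U : Submodule k V, (∀ g, U ≤ U.comap (ρ g)) → U ≠ ⊥ → U ≤ W → U = W := by
  classical
  have hex : ∃ d : ℕ, ∃ W : Submodule k V, (∀ g, W ≤ W.comap (ρ g)) ∧ W ≠ ⊥ ∧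
      Module.finrank k W = d :=
    ⟨_, ⊤, fun g _ _ => Submodule.mem_top, top_ne_bot, rfl⟩
  obtain ⟨W, hW, hW0, hd⟩ := Nat.find_spec hex
  refine ⟨W, hW, hW0, fun U hU hU0 hUW => ?_⟩
  have hmin : Nat.find hex ≤ Module.finrank k U := Nat.find_min' hex ⟨U, hU, hU0, rfl⟩
  exact Submodule.eq_of_le_of_finrank_le hUW (by rw [hd]; exact hmin)

/-- A minimal stable subspace is a simple representation. -/
theorem isSimpleRep_of_minimal {V : Type} [AddCommGroup V] [Module k V]
    (ρ : Representation k G V) (W : Submodule k V) (hW : ∀ g, W ≤ W.comap (ρ g))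
    (hW0 : W ≠ ⊥)
    (hmin : ∀ U : Submodule k V, (∀ g, U ≤ U.comap (ρ g)) → U ≠ ⊥ → U ≤ W → U = W) :
    IsSimpleRep (ρ.subrepresentation W hW) := by
  refine ⟨Submodule.nontrivial_iff_ne_bot.mpr hW0, fun U hU => ?_⟩
  by_cases hU0 : U = ⊥
  · exact Or.inl hU0
  right
  have hstab : ∀ g, U.map W.subtype ≤ (U.map W.subtype).comap (ρ g) := by
    rintro g _ ⟨u, hu, rfl⟩
    rw [Submodule.mem_comap]
    exact ⟨(ρ.subrepresentation W hW) g u, hU g hu, rfl⟩
  have hne : U.map W.subtype ≠ ⊥ := by
    intro h
    apply hU0
    apply Submodule.map_injective_of_injective W.subtype_injective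
    rw [h, Submodule.map_bot]
  have hle : U.map W.subtype ≤ W := by
    rintro _ ⟨u, -, rfl⟩
    exact u.2
  have := hmin _ hstab hne hle
  rw [eq_top_iff]
  intro w _
  have hw : (w : V) ∈ U.map W.subtype := by rw [this]; exact w.2
  obtain ⟨u, hu, huw⟩ := hw
  have : u = w := Subtype.ext huw
  rw [← this]
  exact hu

/-- **IND-1 = JH.** -/
theorem stmt_JH : Stmt_JH := by
  intro k _ G _
  have key : ∀ d : ℕ, ∀ (V : Type) [AddCommGroup V] [Module k V] [FiniteDimensional k V]
      (ρ : Representation k G V), Module.finrank k V = d →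
      ∃ (n : ℕ) (S : Fin n → Rep.{0} k G), (∀ i, FiniteDimensional k (S i)) ∧
        (∀ i, IsSimpleRep (S i).ρ) ∧
        ∀ (A : Type) [AddCommGroup A] (F : Rep.{0} k G → A), IsAdditiveFn k G F →
          F (Rep.of ρ) = ∑ i, F (S i) := by
    intro d
    induction d using Nat.strong_induction_on with
    | _ d ih =>
      intro V _ _ _ ρ hd
      rcases subsingleton_or_nontrivial V with hV | hV
      · refine ⟨0, Fin.elim0, fun i => i.elim0, fun i => i.elim0, fun A _ F hF => ?_⟩
        rw [additive_subsingleton hF ρ]
        simp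
      · obtain ⟨W, hW, hW0, hmin⟩ := exists_minimal_stable ρ
        have hsimple := isSimpleRep_of_minimal ρ W hW hW0 hmin
        have hWpos : 0 < Module.finrank k W := by
          rw [Module.finrank_pos_iff]
          exact Submodule.nontrivial_iff_ne_bot.mpr hW0
        have hq : Module.finrank k (V ⧸ W) < d := by
          have := Submodule.finrank_quotient_add_finrank W
          omega
        obtain ⟨n, S, hS1, hS2, hS3⟩ := ih _ hq (V ⧸ W) (ρ.quotient W hW) rfl
        refine ⟨n + 1, Fin.cons (Rep.of (ρ.subrepresentation W hW)) S, ?_, ?_, ?_⟩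
        · intro i
          refine Fin.cases ?_ (fun j => ?_) i
          · rw [Fin.cons_zero]
            exact (inferInstance : FiniteDimensional k W)
          · rw [Fin.cons_succ]
            exact hS1 j
        · intro i
          refine Fin.cases ?_ (fun j => ?_) i
          · rw [Fin.cons_zero]
            exact hsimple
          · rw [Fin.cons_succ]
            exact hS2 j
        · intro A _ F hF
          rw [hF.add ρ W hW, hS3 A F hF, Fin.sum_univ_succ]
          simp only [Fin.cons_zero, Fin.cons_succ]
  intro V _ _ _ ρ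
  exact key _ V ρ rfl

end Fermat.Agent.S56.IND.H01

end
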