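import Fermat.Agent.S56.IND.H01_PermLift

/-!
# S56 / GW-CORE / IND, leaf IND-5 = PERM (helper1), part 2: `Stmt_PERM`

The Brauer character of a permutation representation at an element of order prime to `p` is the
number of fixed points: apply the lift lemma (`sum_lift_roots_eq_trace`) to the permutation
matrix over `W(k̄)`; `Matrix.trace_permutation`.
-/

set_option autoImplicit false
set_option linter.style.haveILetI false

noncomputable section

namespace Fermat.Agent.S56.IND.H01

open Polynomial

/-- A ring homomorphism maps permutation matrices to permutation matrices. -/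
theorem permMatrix_map {R S : Type*} [Semiring R] [Semiring S] (f : R →+* S) {n : Type*}
    [DecidableEq n] (σ : Equiv.Perm n) :
    (σ.permMatrix R).map f = σ.permMatrix S := by
  ext i j
  simp only [Matrix.map_apply, PEquiv.toMatrix_apply]
  split_ifs <;> simp

/-- The matrix of the permutation representation. -/
theorem toMatrix'_permRep (k : Type) [Field k] (G : Type) [Group G] (X : Type) [Fintype X]
    [DecidableEq X] [MulAction G X] (g : G) :
    LinearMap.toMatrix' (permRep k G X g) = ((MulAction.toPerm g : Equiv.Perm X)⁻¹).permMatrix k := by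
  ext x y
  unfold Equiv.Perm.permMatrix
  rw [LinearMap.toMatrix'_apply, permRep_apply, PEquiv.toMatrix_apply]
  simp only [Equiv.toPEquiv_apply, Option.mem_def, Option.some.injEq]
  have : ((MulAction.toPerm g : Equiv.Perm X)⁻¹) x = g⁻¹ • x := rfl
  rw [this]
  by_cases h : g⁻¹ • x = y
  · rw [if_pos h, h, Pi.single_eq_same]
  · rw [if_neg h, Pi.single_eq_of_ne h]

/-- **IND-5 = PERM.** -/
theorem stmt_PERM : Stmt_PERM := by
  intro p _ k _ _ _ G _ _ X _ _ g hg
  classical
  haveI : Fintype X := Fintype.ofFinite X
  have hm0 : orderOf g ≠ 0 := (orderOf_pos g).ne'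
  haveI : NeZero (orderOf g) := ⟨hm0⟩
  haveI : NeZero ((orderOf g : ℕ) : k) := ⟨by
    rw [Ne, CharP.cast_eq_zero_iff k p]
    exact hg⟩
  obtain ⟨ζ₀, hζ₀⟩ :=
    HasEnoughRootsOfUnity.exists_primitiveRoot (AlgebraicClosure k) (orderOf g)
  set σ : Equiv.Perm X := MulAction.toPerm g with hσ
  have hσm : σ⁻¹ ^ orderOf g = 1 := by
    rw [inv_pow, inv_eq_one]
    have h := map_pow (MulAction.toPermHom G X) g (orderOf g)
    rw [pow_orderOf_eq_one, map_one] at h
    exact h.symm
  have hP : (σ⁻¹.permMatrix (WK p k)) ^ orderOf g = 1 := by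
    have h1 : ∀ j : ℕ, (σ⁻¹.permMatrix (WK p k)) ^ j = (σ⁻¹ ^ j).permMatrix (WK p k) := by
      intro j
      induction j with
      | zero => rw [pow_zero, pow_zero, Matrix.permMatrix_one]
      | succ j ih => rw [pow_succ, pow_succ', ih, Matrix.permMatrix_mul]
    rw [h1, hσm, Matrix.permMatrix_one]
  have key := sum_lift_roots_eq_trace (WittVector.constantCoeff : WK p k →+* AlgebraicClosure k)
    (WittVector.teichmuller p) (fun x => WittVector.teichmuller_coeff_zero p x)
    (σ⁻¹.permMatrix (WK p k)) (orderOf g) hP ζ₀ hζ₀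
  rw [permMatrix_map] at key
  -- the characteristic polynomial
  have hcp : (LinearMap.charpoly (permRep k G X g)).map (algebraMap k (AlgebraicClosure k))
      = (σ⁻¹.permMatrix (AlgebraicClosure k)).charpoly := by
    rw [← LinearMap.charpoly_toMatrix (permRep k G X g) (Pi.basisFun k X),
      LinearMap.toMatrix_eq_toMatrix', toMatrix'_permRep, ← Matrix.charpoly_map, permMatrix_map]
  unfold brauer
  rw [Polynomial.aroots_def, hcp, key, Matrix.trace_permutation]
  congr 1
  rw [← Nat.card_coe_set_eq]
  refine Nat.card_congr (Equiv.subtypeEquivRight fun x => ?_)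
  rw [Function.mem_fixedPoints, Function.IsFixedPt]
  show g⁻¹ • x = x ↔ g • x = x
  rw [inv_smul_eq_iff, eq_comm]

end Fermat.Agent.S56.IND.H01

end
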