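import Fermat.Agent.S56.IND.Defs

/-!
# S56 / GW-CORE / IND, leaf IND-5 = PERM (helper1), part 1: the lift lemma

`R` a domain, `π : R →+* F` a ring homomorphism onto a field with a multiplicative section `τ`
(`R = W(k̄)`, `π` the constant coefficient, `τ` the Teichmüller lift).  If `P ∈ M_n(R)` satisfies
`P ^ m = 1` and `F` contains a primitive `m`-th root of unity, then the sum of the lifts `τ ζ` of
the roots `ζ` of the characteristic polynomial of `P mod π` is the trace of `P`.

Proof: in an algebraic closure of `Frac R` the eigenvalues of `P` are `m`-th roots of unity, hence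
powers of the primitive root `τ ζ₀`; so `charpoly P = ∏ (X - τ ζ_i)` in `R[X]`.
-/

set_option autoImplicit false

noncomputable section

namespace Fermat.Agent.S56.IND.H01

open Polynomial

/-- An eigenvalue of a matrix of finite order `m` is an `m`-th root of unity. -/
theorem pow_eq_one_of_isRoot_charpoly {L : Type*} [Field L] {n : Type*} [Fintype n]
    [DecidableEq n] (Q : Matrix n n L) (m : ℕ) (hQ : Q ^ m = 1) (lam : L)
    (hlam : Q.charpoly.IsRoot lam) : lam ^ m = 1 := by
  have h0 : (Matrix.scalar n lam - Q).det = 0 := by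
    rw [← Matrix.eval_charpoly]
    exact hlam
  obtain ⟨v, hv, hv0⟩ := Matrix.exists_mulVec_eq_zero_iff.mpr h0
  have h1 : Q.mulVec v = lam • v := by
    rw [Matrix.sub_mulVec, sub_eq_zero] at hv0
    rw [← hv0]
    ext i
    simp [Matrix.mulVec, dotProduct, Matrix.scalar_apply, Matrix.diagonal_apply]
  have h2 : ∀ j : ℕ, (Q ^ j).mulVec v = lam ^ j • v := by
    intro j
    induction j with
    | zero => simp
    | succ j ih =>
      rw [pow_succ, ← Matrix.mulVec_mulVec, h1, Matrix.mulVec_smul, ih, smul_smul, pow_succ,
        mul_comm]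
  have h3 := h2 m
  rw [hQ, Matrix.one_mulVec] at h3
  by_contra hne
  apply hv
  have h4 : (lam ^ m - 1) • v = 0 := by
    rw [sub_smul, one_smul, ← h3, sub_self]
  rcases smul_eq_zero.mp h4 with h | h
  · exact absurd (sub_eq_zero.mp h) hne
  · exact h

/-- **The lift lemma.** -/
theorem sum_lift_roots_eq_trace {R F : Type*} [CommRing R] [IsDomain R] [Field F]
    (π : R →+* F) (τ : F →* R) (hπτ : ∀ x, π (τ x) = x) {n : Type*} [Fintype n]
    [DecidableEq n] (P : Matrix n n R) (m : ℕ) [NeZero m] (hP : P ^ m = 1) (ζ₀ : F)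
    (hζ₀ : IsPrimitiveRoot ζ₀ m) :
    (((P.map π).charpoly.roots).map τ).sum = P.trace := by
  classical
  let ι : R →+* AlgebraicClosure (FractionRing R) :=
    (algebraMap (FractionRing R) (AlgebraicClosure (FractionRing R))).comp
      (algebraMap R (FractionRing R))
  have hι : Function.Injective ι :=
    (algebraMap (FractionRing R) (AlgebraicClosure (FractionRing R))).injective.comp
      (IsFractionRing.injective R (FractionRing R))
  have hτ : Function.Injective τ := fun x y h => by rw [← hπτ x, ← hπτ y, h]
  have hprim : IsPrimitiveRoot (ι (τ ζ₀)) m :=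
    (hζ₀.map_of_injective hτ).map_of_injective hι
  have hPι : (P.map ι) ^ m = 1 := by
    have := congrArg (ι.mapMatrix) hP
    rwa [map_pow, map_one, RingHom.mapMatrix_apply] at this
  -- every root of `charpoly (P.map ι)` is `ι (τ ζ)`
  have hroot : ∀ lam ∈ (P.map ι).charpoly.roots, ∃ ζ : F, ι (τ ζ) = lam := by
    intro lam hlam
    have h3 := pow_eq_one_of_isRoot_charpoly (P.map ι) m hPι lam (isRoot_of_mem_roots hlam)
    obtain ⟨i, -, hi⟩ := hprim.eq_pow_of_pow_eq_one h3
    exact ⟨ζ₀ ^ i, by rw [map_pow, map_pow]; exact hi⟩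
  choose! s hs using hroot
  have hΛ : (P.map ι).charpoly.roots
      = ((P.map ι).charpoly.roots.map s).map (fun ζ => ι (τ ζ)) := by
    rw [Multiset.map_map]
    conv_lhs => rw [← Multiset.map_id (P.map ι).charpoly.roots]
    exact Multiset.map_congr rfl fun lam hlam => (hs lam hlam).symm
  have hsplit : (P.map ι).charpoly
      = ((P.map ι).charpoly.roots.map fun a => X - C a).prod :=
    (IsAlgClosed.splits _).eq_prod_roots_of_monic (Matrix.charpoly_monic _)
  have hchar : P.charpoly
      = (((P.map ι).charpoly.roots.map s).map fun ζ => X - C (τ ζ)).prod := by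
    apply Polynomial.map_injective ι hι
    rw [← Matrix.charpoly_map, Polynomial.map_multiset_prod, Multiset.map_map]
    conv_lhs => rw [hsplit, hΛ]
    rw [Multiset.map_map]
    congr 1
    refine Multiset.map_congr rfl fun ζ _ => ?_
    simp
  have hroots : (P.map π).charpoly.roots = (P.map ι).charpoly.roots.map s := by
    rw [Matrix.charpoly_map, hchar, Polynomial.map_multiset_prod, Multiset.map_map]
    have : (((P.map ι).charpoly.roots.map s).map
        ((Polynomial.map π) ∘ fun ζ => X - C (τ ζ)))
        = ((P.map ι).charpoly.roots.map s).map (fun ζ => X - C ζ) :=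
      Multiset.map_congr rfl fun ζ _ => by simp [hπτ]
    rw [this, Polynomial.roots_multiset_prod_X_sub_C]
  rw [hroots]
  apply hι
  have htr : ι P.trace = (P.map ι).trace := by
    rw [AddMonoidHom.map_trace]
  rw [htr, Matrix.trace_eq_sum_roots_charpoly, map_multiset_sum, Multiset.map_map]
  conv_rhs => rw [hΛ]
  rfl

end Fermat.Agent.S56.IND.H01

end
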